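import Fermat.Agent.S28.ChartsAlt.ThetaTr

/-!
# S28 Part C (CAlt): `ℤ_(ℓ)[j]` and `ℤ_(ℓ)[j⁻¹]` are integrally closed in `ℚ(j)`.
INTERFACE (statements frozen).

`ℤ_(ℓ)[Y]` is a UFD (`zl_isPrincipalIdealRing`, `Zl.lean`), hence integrally closed; transport
along the injective `θ : ℤ_(ℓ)[Y] → ℚ((q))`, whose extension to `FractionRing` has image
`Subfield.closure (range θ)` (`Subfield.mem_closure_iff`).
-/

set_option autoImplicit false

noncomputable section

namespace Fermat.Agent.S28.CAlt

open ModularCurve ModularCurve.IgusaScheme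

/-- The image of an integrally closed domain under an injective ring hom into a field is
integrally closed in the subfield it generates. -/
theorem range_integrallyClosed {A L : Type*} [CommRing A] [IsDomain A] [IsIntegrallyClosed A]
    [Field L] (θ : A →+* L) (hθ : Function.Injective θ) (x : L)
    (hx : x ∈ Subfield.closure (Set.range θ)) (hint : IsIntegral θ.range x) : x ∈ θ.range := by
  -- the extension `θ'` of `θ` to the fraction field `K` of `A`
  have hθ' : ∀ a : A, (IsFractionRing.lift hθ : FractionRing A →+* L)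
      (algebraMap A (FractionRing A) a) = θ a := fun a => IsFractionRing.lift_algebraMap hθ a
  -- `x` lies in the image of `θ'`
  have hle : Subfield.closure (Set.range θ) ≤
      (IsFractionRing.lift hθ : FractionRing A →+* L).fieldRange := by
    rw [Subfield.closure_le]
    rintro _ ⟨a, rfl⟩
    exact ⟨algebraMap A (FractionRing A) a, hθ' a⟩
  obtain ⟨k, hk⟩ := hle hx
  -- a monic polynomial over `A` with root `k`
  obtain ⟨p, hp, hpx⟩ := hint
  obtain ⟨q, hq⟩ := Polynomial.map_surjective θ.rangeRestrict θ.rangeRestrict_surjective p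
  have hinj : Function.Injective θ.rangeRestrict := fun a b hab =>
    hθ (congrArg Subtype.val hab)
  have hqm : q.Monic := Polynomial.monic_of_injective hinj (hq ▸ hp)
  have hcomp : (algebraMap θ.range L).comp θ.rangeRestrict =
      (IsFractionRing.lift hθ : FractionRing A →+* L).comp (algebraMap A (FractionRing A)) := by
    ext a
    rw [RingHom.comp_apply, RingHom.comp_apply, hθ']
    rfl
  rw [← hq, Polynomial.eval₂_map, hcomp, ← hk, ← Polynomial.hom_eval₂] at hpx
  have hkint : IsIntegral A k :=
    ⟨q, hqm, (IsFractionRing.lift hθ : FractionRing A →+* L).injective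
      (by rw [hpx, map_zero])⟩
  obtain ⟨c, hc⟩ := IsIntegrallyClosed.isIntegral_iff.mp hkint
  exact ⟨c, by rw [← hk, ← hc, hθ']⟩

variable (ℓ : ℕ) [Fact ℓ.Prime]

theorem thetaJ_intClosed (x : LaurentSeries ℚ) (hx : x ∈ fieldJ ℓ)
    (hint : IsIntegral (thetaJ ℓ).range x) : x ∈ (thetaJ ℓ).range := by
  have := zl_isPrincipalIdealRing ℓ
  exact range_integrallyClosed (thetaJ ℓ) (thetaJ_injective ℓ) x hx hint

theorem thetaJinv_intClosed (x : LaurentSeries ℚ) (hx : x ∈ fieldJ ℓ)
    (hint : IsIntegral (thetaJinv ℓ).range x) : x ∈ (thetaJinv ℓ).range := by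
  have := zl_isPrincipalIdealRing ℓ
  have hx' : x ∈ Subfield.closure (Set.range (thetaJinv ℓ)) := by
    rw [closure_range_thetaJinv]
    exact hx
  exact range_integrallyClosed (thetaJinv ℓ) (thetaJinv_injective ℓ) x hx' hint

end Fermat.Agent.S28.CAlt
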