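import Fermat.Agent.S28.ChartsAlt.NormalForm
import Fermat.Agent.S28.ChartsAlt.IntClosedPoly

/-!
# S28 Part C (CAlt): `ℓ`-saturation of the integral closures of `ℤ_(ℓ)[j]`, `ℤ_(ℓ)[j⁻¹]`.
INTERFACE (statements frozen).

Apply `Fermat.Agent.S28.isIntegral_of_scaled` (`Alg/Gauss.lean`) with `R₀ := (thetaJ ℓ).range`,
`R := (thetaJ ℓ).range` resp. `(thetaJinv ℓ).range`, `𝒪 := bigO ℓ`, `K := fieldJ ℓ`, `p := ℓ`,
`b := thetaJ ℓ b₀` from `Pkg.isO_form` (`b⁻¹ ∈ bigO`: `thetaJ_eq_embZ`, `isBigO_inv_embZ`;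
`b·y = emb(λ)` integral over `R₀`: `Pkg.isIntegral_embZ_lam`), `hdiv := thetaJ_div` resp.
`thetaJinv_div`, `hR₀`, `hR` from `thetaJ_intClosed`, `thetaJinv_intClosed`.
-/

set_option autoImplicit false

noncomputable section

namespace Fermat.Agent.S28.CAlt

open ModularCurve ModularCurve.IgusaScheme

variable {N : ℕ} [NeZero N] {ℓ : ℕ} [Fact ℓ.Prime] {n : ℕ} {u : LaurentSeries ℤ}
  {Ψ : Polynomial (Polynomial (Zl ℓ))}

namespace K8Aux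

/-- Common core: the scaled-integrality step for a ring `R` (either `ℤ_(ℓ)[j]` or `ℤ_(ℓ)[j⁻¹]`). -/
theorem core (h : Pkg N ℓ n u Ψ) (R : Subring (LaurentSeries ℚ))
    (hRK : R ≤ (fieldJ ℓ).toSubring)
    (hR : ∀ x : LaurentSeries ℚ, x ∈ fieldJ ℓ → IsIntegral R x → x ∈ R)
    (hp : ((ℓ : ℕ) : LaurentSeries ℚ) ∈ R)
    (hdiv : ∀ a : LaurentSeries ℚ, a ∈ R → ∀ x : LaurentSeries ℚ, x ∈ bigO ℓ →
      a = ((ℓ : ℕ) : LaurentSeries ℚ) * x → x ∈ R)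
    {y : LaurentSeries ℚ}
    (hy : y ∈ modularFunctionFieldFull N) (hO : IsBigO ℓ y)
    (hint : IsIntegral R (((ℓ : ℕ) : LaurentSeries ℚ) * y)) :
    IsIntegral R y := by
  obtain ⟨lam, hlam, b₀, hb₀, hyb⟩ := h.isO_form hy hO
  have hR₀𝒪 : (thetaJ ℓ).range ≤ bigO ℓ := by
    rintro x ⟨c, rfl⟩
    exact mem_bigO_iff.2 (isBigO_thetaJ ℓ c)
  have hb0 : thetaJ ℓ b₀ ≠ 0 := by
    rw [thetaJ_eq_embZ]
    intro h0
    apply hb₀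
    have : evalJZ ℓ b₀ = 0 := embZ_injective ℓ (by rw [h0, map_zero])
    rw [this, map_zero]
  have hbinv : (thetaJ ℓ b₀)⁻¹ ∈ bigO ℓ := by
    rw [thetaJ_eq_embZ]
    exact mem_bigO_iff.2 (isBigO_inv_embZ ℓ _ hb₀)
  have hby : IsIntegral (thetaJ ℓ).range (thetaJ ℓ b₀ * y) := by
    rw [mul_comm, hyb]
    exact h.isIntegral_embZ_lam lam hlam
  exact isIntegral_of_scaled (thetaJ ℓ).range R (bigO ℓ) (fieldJ ℓ)
    (thetaJ_range_le_fieldJ ℓ) hRK (thetaJ_intClosed ℓ) hR hR₀𝒪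
    ((ℓ : ℕ) : LaurentSeries ℚ) hp (mem_bigO_iff.2 (isBigO_natCast ℓ ℓ))
    (natCast_ell_LQ_ne_zero ℓ) hdiv y (thetaJ ℓ b₀) ⟨b₀, rfl⟩ hb0 hbinv hby hint

end K8Aux

theorem Pkg.isIntegral_fin (h : Pkg N ℓ n u Ψ) {y : LaurentSeries ℚ}
    (hy : y ∈ modularFunctionFieldFull N) (hO : IsBigO ℓ y)
    (hint : IsIntegral (thetaJ ℓ).range (((ℓ : ℕ) : LaurentSeries ℚ) * y)) :
    IsIntegral (thetaJ ℓ).range y :=
  K8Aux.core h (thetaJ ℓ).range (thetaJ_range_le_fieldJ ℓ) (thetaJ_intClosed ℓ)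
    (natCast_mem_thetaJ_range ℓ ℓ) (thetaJ_div ℓ) hy hO hint

theorem Pkg.isIntegral_inf (h : Pkg N ℓ n u Ψ) {y : LaurentSeries ℚ}
    (hy : y ∈ modularFunctionFieldFull N) (hO : IsBigO ℓ y)
    (hint : IsIntegral (thetaJinv ℓ).range (((ℓ : ℕ) : LaurentSeries ℚ) * y)) :
    IsIntegral (thetaJinv ℓ).range y :=
  K8Aux.core h (thetaJinv ℓ).range (thetaJinv_range_le_fieldJ ℓ) (thetaJinv_intClosed ℓ)
    (natCast_mem_thetaJinv_range ℓ ℓ) (thetaJinv_div ℓ) hy hO hint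

end Fermat.Agent.S28.CAlt
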