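import Fermat.Agent.S28.ChartsAlt.Defs

/-!
# S28 Part C (CAlt): membership in the chart algebras in terms of integrality inside `ℚ((q))`.
INTERFACE (statements frozen).

`chartAlgFin N ℓ = chartAlg N ℓ {jFull N}` is the set of `x ∈ F` integral over
`Algebra.adjoin ℤ_(ℓ) {jFull N} = (aeval (jFull N)).range`
(`Algebra.adjoin_singleton_eq_range_aeval`), and the inclusion `F ⊆ ℚ((q))` maps this ring
isomorphically onto `(thetaJ ℓ).range` (`coe_jFull : (jFull N : ℚ((q))) = jq = jqModC ℚ`).
Prelude: `Fermat/Prelude/Def_ModularCurve_IgusaScheme.lean` (`chartAlg`, `mem_chartAlg_iff`,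
the scoped algebra instance `igusaAlgebra`).
-/

set_option autoImplicit false

noncomputable section

namespace Fermat.Agent.S28.CAlt

open ModularCurve ModularCurve.IgusaScheme

variable (ℓ : ℕ) [Fact ℓ.Prime] (N : ℕ) [NeZero N]

namespace TransferAux

/-- The inclusion `F ⊆ ℚ((q))` as a ring homomorphism. -/
def iotaF : ↥(modularFunctionFieldFull N) →+* LaurentSeries ℚ :=
  (modularFunctionFieldFull N).toSubfield.subtype

omit [NeZero N] in
theorem iotaF_apply (x : ↥(modularFunctionFieldFull N)) :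
    iotaF N x = (x : LaurentSeries ℚ) := rfl

omit [NeZero N] in
theorem iotaF_injective : Function.Injective (iotaF N) := fun _ _ h => Subtype.ext h

omit [Fact ℓ.Prime] [NeZero N] in
/-- On constants, the inclusion is `constQ`. -/
theorem iotaF_comp_algebraMap :
    (iotaF N).comp (algebraMap (Zl ℓ) ↥(modularFunctionFieldFull N)) = constQ ℓ := by
  have h1 : (iotaF N).comp (algebraMap ℚ ↥(modularFunctionFieldFull N)) =
      (HahnSeries.C : ℚ →+* LaurentSeries ℚ) := Subsingleton.elim _ _
  have h2 : algebraMap (Zl ℓ) ↥(modularFunctionFieldFull N) =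
      (algebraMap ℚ ↥(modularFunctionFieldFull N)).comp (GaloisRep.ratLocalizedAt ℓ).subtype :=
    rfl
  rw [h2, ← RingHom.comp_assoc, h1]
  rfl

omit [Fact ℓ.Prime] [NeZero N] in
/-- The inclusion of `b(t)` is `b(t)` computed in `ℚ((q))`. -/
theorem iotaF_aeval (t : ↥(modularFunctionFieldFull N)) (b : Polynomial (Zl ℓ)) :
    iotaF N (Polynomial.aeval t b) =
      Polynomial.eval₂RingHom (constQ ℓ) (t : LaurentSeries ℚ) b := by
  rw [Polynomial.aeval_def, Polynomial.hom_eval₂, iotaF_comp_algebraMap]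
  rfl

/-- General transfer: integrality over `ℤ_(ℓ)[t] ⊆ F` is integrality over the image of
`b ↦ b(t)` in `ℚ((q))`. -/
theorem mem_chartAlg_singleton_iff (t : ↥(modularFunctionFieldFull N))
    (x : ↥(modularFunctionFieldFull N)) :
    x ∈ chartAlg N ℓ {t} ↔
      IsIntegral (Polynomial.eval₂RingHom (constQ ℓ) (t : LaurentSeries ℚ)).range
        (x : LaurentSeries ℚ) := by
  rw [mem_chartAlg_iff]
  set A := Algebra.adjoin (Zl ℓ) ({t} : Set ↥(modularFunctionFieldFull N)) with hA
  set T := (Polynomial.eval₂RingHom (constQ ℓ) (t : LaurentSeries ℚ)).range with hT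
  have hAmem : ∀ a : ↥(modularFunctionFieldFull N), a ∈ A ↔
      ∃ b : Polynomial (Zl ℓ), Polynomial.aeval t b = a := by
    intro a
    rw [hA, Algebra.adjoin_singleton_eq_range_aeval]
    exact AlgHom.mem_range _
  have hmaps : ∀ a : A, iotaF N (a : ↥(modularFunctionFieldFull N)) ∈ T := by
    intro a
    obtain ⟨b, hb⟩ := (hAmem a).mp a.2
    rw [← hb, iotaF_aeval]
    exact RingHom.mem_range_self _ b
  -- the restriction of the inclusion
  let g : A →+* T := ((iotaF N).comp (algebraMap A ↥(modularFunctionFieldFull N))).codRestrict T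
    hmaps
  have hg : ∀ a : A, ((g a : T) : LaurentSeries ℚ) = iotaF N (a : ↥(modularFunctionFieldFull N)) :=
    fun _ => rfl
  have hcomp : (algebraMap T (LaurentSeries ℚ)).comp g =
      (iotaF N).comp (algebraMap A ↥(modularFunctionFieldFull N)) := by
    ext a
    rfl
  have hgsurj : Function.Surjective g := by
    rintro ⟨y, hy⟩
    obtain ⟨b, hb⟩ := RingHom.mem_range.mp hy
    have hmem : Polynomial.aeval t b ∈ A := (hAmem _).mpr ⟨b, rfl⟩
    refine ⟨⟨Polynomial.aeval t b, hmem⟩, Subtype.ext ?_⟩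
    rw [hg]
    change iotaF N (Polynomial.aeval t b) = y
    rw [iotaF_aeval, hb]
  constructor
  · intro hx
    exact IsIntegral.map_of_comp_eq g (iotaF N) hcomp hx
  · rintro ⟨p, hpmonic, hproot⟩
    have hlifts : p ∈ Polynomial.lifts g :=
      (Polynomial.mem_lifts p).mpr (Polynomial.map_surjective g hgsurj p)
    obtain ⟨p', hp'p, -, hp'monic⟩ := Polynomial.lifts_and_natDegree_eq_and_monic hlifts hpmonic
    refine ⟨p', hp'monic, iotaF_injective N ?_⟩
    rw [map_zero, Polynomial.hom_eval₂, ← hcomp, ← Polynomial.eval₂_map, hp'p]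
    exact hproot

end TransferAux

theorem mem_chartAlgFin_iff (x : ↥(modularFunctionFieldFull N)) :
    x ∈ chartAlgFin N ℓ ↔ IsIntegral (thetaJ ℓ).range (x : LaurentSeries ℚ) :=
  TransferAux.mem_chartAlg_singleton_iff ℓ N (jFull N) x

theorem mem_chartAlgInf_iff (x : ↥(modularFunctionFieldFull N)) :
    x ∈ chartAlgInf N ℓ ↔ IsIntegral (thetaJinv ℓ).range (x : LaurentSeries ℚ) :=
  TransferAux.mem_chartAlg_singleton_iff ℓ N (jFull N)⁻¹ x

end Fermat.Agent.S28.CAlt
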