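import Fermat.Agent.S28.ChartsAlt.RhoBig

/-!
# S28 Part C (CAlt): the field of quotients `emb(C)/emb(B)`, `B ≠ 0`; it contains the function
field `F = ℚ(j(q^d) : d ∣ N)`.  INTERFACE (statements frozen).
-/

set_option autoImplicit false

noncomputable section

namespace Fermat.Agent.S28.CAlt

open ModularCurve ModularCurve.IgusaScheme

variable (ℓ : ℕ) [Fact ℓ.Prime]

namespace BigKAux

/-- `embZ` of a nonzero series is nonzero. -/
theorem embZ_ne_zero (ℓ : ℕ) {B : LaurentSeries (Zl ℓ)} (hB : B ≠ 0) : embZ ℓ B ≠ 0 := by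
  intro h
  apply hB
  apply embZ_injective ℓ
  rw [h, map_zero]

/-- `0` is a quotient. -/
theorem isBigK_zero (ℓ : ℕ) : IsBigK ℓ 0 :=
  ⟨0, 1, one_ne_zero, by rw [zero_mul, map_zero]⟩

end BigKAux

variable {ℓ} in
theorem isBigK_of_isBigO {x : LaurentSeries ℚ} (hx : IsBigO ℓ x) : IsBigK ℓ x := by
  obtain ⟨C, B, hB, h⟩ := hx
  refine ⟨C, B, ?_, h⟩
  rintro rfl
  exact hB (map_zero _)

omit [Fact ℓ.Prime] in
variable {ℓ} in
theorem IsBigK.add {x y : LaurentSeries ℚ} (hx : IsBigK ℓ x) (hy : IsBigK ℓ y) :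
    IsBigK ℓ (x + y) := by
  obtain ⟨C, B, hB, h⟩ := hx
  obtain ⟨C', B', hB', h'⟩ := hy
  refine ⟨C * B' + C' * B, B * B', mul_ne_zero hB hB', ?_⟩
  rw [map_add, map_mul, map_mul, map_mul, ← h, ← h']
  ring

omit [Fact ℓ.Prime] in
variable {ℓ} in
theorem IsBigK.mul {x y : LaurentSeries ℚ} (hx : IsBigK ℓ x) (hy : IsBigK ℓ y) :
    IsBigK ℓ (x * y) := by
  obtain ⟨C, B, hB, h⟩ := hx
  obtain ⟨C', B', hB', h'⟩ := hy
  refine ⟨C * C', B * B', mul_ne_zero hB hB', ?_⟩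
  rw [map_mul, map_mul, ← h, ← h']
  ring

omit [Fact ℓ.Prime] in
variable {ℓ} in
theorem IsBigK.inv {x : LaurentSeries ℚ} (hx : IsBigK ℓ x) : IsBigK ℓ x⁻¹ := by
  rcases eq_or_ne x 0 with rfl | hx0
  · rw [inv_zero]
    exact BigKAux.isBigK_zero ℓ
  · obtain ⟨C, B, hB, h⟩ := hx
    have hC : C ≠ 0 := by
      rintro rfl
      rw [map_zero] at h
      rcases mul_eq_zero.mp h with h1 | h1
      · exact hx0 h1
      · exact BigKAux.embZ_ne_zero ℓ hB h1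
    refine ⟨B, C, hC, ?_⟩
    rw [← h, inv_mul_cancel_left₀ hx0]

omit [Fact ℓ.Prime] in
theorem isBigK_algebraMap (r : ℚ) : IsBigK ℓ (algebraMap ℚ (LaurentSeries ℚ) r) := by
  have hden : ((r.den : ℕ) : Zl ℓ) ≠ 0 := by
    intro h
    have h2 : (((r.den : ℕ) : Zl ℓ) : ℚ) = 0 := by rw [h]; rfl
    rw [Subring.coe_natCast] at h2
    exact r.den_ne_zero (by exact_mod_cast h2)
  refine ⟨HahnSeries.C ((r.num : ℤ) : Zl ℓ), HahnSeries.C ((r.den : ℕ) : Zl ℓ), ?_, ?_⟩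
  · intro h
    apply hden
    have hinj : Function.Injective (HahnSeries.C : Zl ℓ → LaurentSeries (Zl ℓ)) :=
      HahnSeries.C_injective
    exact hinj (by rw [h, map_zero])
  · rw [embZ_C, embZ_C, algebraMap_apply_eq_single, Subring.coe_natCast, Subring.coe_intCast,
      ← HahnSeries.C_apply, ← map_mul, Rat.mul_den_eq_num]

omit [Fact ℓ.Prime] in
/-- The generators `j(q^d)` have integral coefficients. -/
theorem isBigK_qExpand_jq (d : ℕ) [NeZero d] : IsBigK ℓ (qExpand ℚ d jq) := by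
  refine ⟨qExpand (Zl ℓ) d (jqModC (Zl ℓ)), 1, one_ne_zero, ?_⟩
  have h : embZ ℓ (qExpand (Zl ℓ) d (jqModC (Zl ℓ))) = qExpand ℚ d jq := by
    unfold embZ
    rw [coeffMap_qExpand, coeffMap_jqModC, jqModC_rat]
  rw [map_one, mul_one, h]

omit [Fact ℓ.Prime] in
/-- The function field is contained in the field of quotients
(`IntermediateField.adjoin_induction`). -/
theorem isBigK_of_mem_full (N : ℕ) [NeZero N] {x : LaurentSeries ℚ}
    (hx : x ∈ modularFunctionFieldFull N) : IsBigK ℓ x := by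
  unfold modularFunctionFieldFull at hx
  induction hx using IntermediateField.adjoin_induction with
  | mem y hy =>
    obtain ⟨d, hd, -, rfl⟩ := hy
    exact isBigK_qExpand_jq ℓ d
  | algebraMap r => exact isBigK_algebraMap ℓ r
  | add y z _ _ hy hz => exact hy.add hz
  | inv y _ hy => exact hy.inv
  | mul y z _ _ hy hz => exact hy.mul hz

variable {ℓ} in
/-- Normal form: `x = ℓ^m · emb(C₀)/emb(B₀)` with `C₀`, `B₀` primitive. -/
theorem IsBigK.normal_form {x : LaurentSeries ℚ} (hx : IsBigK ℓ x) (hx0 : x ≠ 0) :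
    ∃ (m : ℤ) (C₀ B₀ : LaurentSeries (Zl ℓ)), redZ ℓ C₀ ≠ 0 ∧ redZ ℓ B₀ ≠ 0 ∧
      x * embZ ℓ B₀ = ((ℓ : ℕ) : LaurentSeries ℚ) ^ m * embZ ℓ C₀ := by
  obtain ⟨C, B, hB, h⟩ := hx
  have hC : C ≠ 0 := by
    rintro rfl
    rw [map_zero] at h
    rcases mul_eq_zero.mp h with h1 | h1
    · exact hx0 h1
    · exact BigKAux.embZ_ne_zero ℓ hB h1
  obtain ⟨k, C₀, hC₀, rfl⟩ := exists_pow_mul_prim ℓ C hC
  obtain ⟨k', B₀, hB₀, rfl⟩ := exists_pow_mul_prim ℓ B hB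
  have hp : ((ℓ : ℕ) : LaurentSeries ℚ) ≠ 0 := natCast_ell_LQ_ne_zero ℓ
  refine ⟨(k : ℤ) - (k' : ℤ), C₀, B₀, hC₀, hB₀, ?_⟩
  rw [map_mul, map_mul, map_pow, map_pow, map_natCast] at h
  rw [zpow_sub₀ hp, zpow_natCast, zpow_natCast, div_mul_eq_mul_div,
    eq_div_iff (pow_ne_zero _ hp), ← h]
  ring

end Fermat.Agent.S28.CAlt
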