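import Fermat.Agent.S28.ChartsAlt.Red

/-!
# S28 Part C (CAlt): the subring `bigO ℓ ⊆ ℚ((q))` of quotients `emb(C)/emb(B)`, `B` primitive.
INTERFACE (definitions complete, statements frozen).
-/

set_option autoImplicit false

noncomputable section

namespace Fermat.Agent.S28.CAlt

open ModularCurve ModularCurve.IgusaScheme

variable (ℓ : ℕ) [Fact ℓ.Prime]

theorem isBigO_zero : IsBigO ℓ 0 := by
  refine ⟨0, 1, ?_, ?_⟩
  · rw [map_one]
    exact one_ne_zero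
  · rw [zero_mul, map_zero]

theorem isBigO_one : IsBigO ℓ 1 := by
  refine ⟨1, 1, ?_, ?_⟩
  · rw [map_one]
    exact one_ne_zero
  · rw [one_mul]

variable {ℓ} in
theorem IsBigO.add {x y : LaurentSeries ℚ} (hx : IsBigO ℓ x) (hy : IsBigO ℓ y) :
    IsBigO ℓ (x + y) := by
  obtain ⟨C, B, hB, h⟩ := hx
  obtain ⟨C', B', hB', h'⟩ := hy
  refine ⟨C * B' + C' * B, B * B', ?_, ?_⟩
  · rw [map_mul]
    exact mul_ne_zero hB hB'
  · rw [map_mul, map_add, map_mul, map_mul, ← h, ← h']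
    ring

variable {ℓ} in
theorem IsBigO.mul {x y : LaurentSeries ℚ} (hx : IsBigO ℓ x) (hy : IsBigO ℓ y) :
    IsBigO ℓ (x * y) := by
  obtain ⟨C, B, hB, h⟩ := hx
  obtain ⟨C', B', hB', h'⟩ := hy
  refine ⟨C * C', B * B', ?_, ?_⟩
  · rw [map_mul]
    exact mul_ne_zero hB hB'
  · rw [map_mul, map_mul, ← h, ← h']
    ring

variable {ℓ} in
theorem IsBigO.neg {x : LaurentSeries ℚ} (hx : IsBigO ℓ x) : IsBigO ℓ (-x) := by
  obtain ⟨C, B, hB, h⟩ := hx
  refine ⟨-C, B, hB, ?_⟩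
  rw [map_neg, ← h, neg_mul]

/-- The discrete valuation ring of quotients `emb(C)/emb(B)`, `B` primitive. -/
def bigO : Subring (LaurentSeries ℚ) where
  carrier := {x | IsBigO ℓ x}
  mul_mem' := fun hx hy => hx.mul hy
  one_mem' := isBigO_one ℓ
  add_mem' := fun hx hy => hx.add hy
  zero_mem' := isBigO_zero ℓ
  neg_mem' := fun hx => hx.neg

variable {ℓ} in
theorem mem_bigO_iff {x : LaurentSeries ℚ} : x ∈ bigO ℓ ↔ IsBigO ℓ x := Iff.rfl

theorem isBigO_embZ (C : LaurentSeries (Zl ℓ)) : IsBigO ℓ (embZ ℓ C) := by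
  refine ⟨C, 1, ?_, ?_⟩
  · rw [map_one]
    exact one_ne_zero
  · rw [map_one, mul_one]

theorem isBigO_inv_embZ (B : LaurentSeries (Zl ℓ)) (hB : redZ ℓ B ≠ 0) :
    IsBigO ℓ (embZ ℓ B)⁻¹ := by
  have hB0 : B ≠ 0 := by
    rintro rfl
    exact hB (map_zero _)
  have hne : embZ ℓ B ≠ 0 := by
    intro h0
    apply hB0
    apply embZ_injective ℓ
    rw [h0, map_zero]
  refine ⟨1, B, hB, ?_⟩
  rw [inv_mul_cancel₀ hne, map_one]

theorem isBigO_natCast (m : ℕ) : IsBigO ℓ ((m : ℕ) : LaurentSeries ℚ) := by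
  have h := isBigO_embZ ℓ ((m : ℕ) : LaurentSeries (Zl ℓ))
  rw [map_natCast] at h
  exact h

theorem isBigO_constQ (a : Zl ℓ) : IsBigO ℓ (constQ ℓ a) := by
  have h := isBigO_embZ ℓ (HahnSeries.C a)
  rw [embZ_C] at h
  exact h

end Fermat.Agent.S28.CAlt
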