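import Fermat.Agent.S28.ChartsAlt.IntClosed

/-!
# S28 Part C (CAlt): the chart algebras lie in `bigO ℓ`; the reduction homomorphisms.
INTERFACE (definitions complete, statements frozen).
-/

set_option autoImplicit false

noncomputable section

namespace Fermat.Agent.S28.CAlt

open ModularCurve ModularCurve.IgusaScheme

variable (ℓ : ℕ) [Fact ℓ.Prime]

theorem isBigO_jq : IsBigO ℓ jq := by
  have h := isBigO_embZ ℓ (jZ ℓ)
  rwa [embZ_jZ, jqModC_rat] at h

theorem isBigO_jq_inv : IsBigO ℓ jq⁻¹ := by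
  have hB : redZ ℓ (jZ ℓ) ≠ 0 := by
    rw [redZ_jZ]
    exact jqModC_ne_zero_of_nontrivial (ZMod ℓ)
  have h := isBigO_inv_embZ ℓ (jZ ℓ) hB
  rwa [embZ_jZ, jqModC_rat] at h

namespace ChartOAux

/-- The constants of `ℤ_(ℓ)` in the function field coerce to the constants `constQ` of `ℚ((q))`
(ring homs out of `ℤ_(ℓ)` are unique). -/
theorem coe_algebraMap_eq_constQ (N : ℕ) [NeZero N] (r : Zl ℓ) :
    ((algebraMap (Zl ℓ) ↥(modularFunctionFieldFull N) r : ↥(modularFunctionFieldFull N)) :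
      LaurentSeries ℚ) = constQ ℓ r := by
  have h : ((modularFunctionFieldFull N).val : ↥(modularFunctionFieldFull N) →+*
      LaurentSeries ℚ).comp (algebraMap (Zl ℓ) ↥(modularFunctionFieldFull N)) = constQ ℓ :=
    zl_ringHom_ext ℓ _ _
  exact RingHom.congr_fun h r

/-- Every element of `ℤ_(ℓ)[S]` lies in `bigO` if the generators do. -/
theorem isBigO_of_mem_adjoin (N : ℕ) [NeZero N] (S : Set ↥(modularFunctionFieldFull N))
    (hS : ∀ s ∈ S, IsBigO ℓ ((s : ↥(modularFunctionFieldFull N)) : LaurentSeries ℚ))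
    (a : ↥(modularFunctionFieldFull N)) (ha : a ∈ Algebra.adjoin (Zl ℓ) S) :
    IsBigO ℓ (a : LaurentSeries ℚ) := by
  induction ha using Algebra.adjoin_induction with
  | mem s hs => exact hS s hs
  | algebraMap r =>
    rw [coe_algebraMap_eq_constQ]
    exact isBigO_constQ ℓ r
  | add y z _ _ hy hz => exact hy.add hz
  | mul y z _ _ hy hz => exact hy.mul hz

end ChartOAux

/-- If the generators `S` lie in `bigO`, so does the integral closure `chartAlg N ℓ S` of
`ℤ_(ℓ)[S]` in `F` (`isBigK_of_mem_full`, `isBigO_of_isIntegral`). -/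
theorem isBigO_of_mem_chartAlg (N : ℕ) [NeZero N] (S : Set ↥(modularFunctionFieldFull N))
    (hS : ∀ s ∈ S, IsBigO ℓ ((s : ↥(modularFunctionFieldFull N)) : LaurentSeries ℚ))
    (x : ↥(modularFunctionFieldFull N)) (hx : x ∈ chartAlg N ℓ S) :
    IsBigO ℓ (x : LaurentSeries ℚ) := by
  have hK : IsBigK ℓ (x : LaurentSeries ℚ) := isBigK_of_mem_full ℓ N x.2
  obtain ⟨p, hp_monic, hp_root⟩ := (mem_chartAlg_iff N ℓ).mp hx
  -- the inclusion `F → ℚ((q))` and the induced map `ℤ_(ℓ)[S] → bigO`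
  let ι : ↥(modularFunctionFieldFull N) →+* LaurentSeries ℚ :=
    ((modularFunctionFieldFull N).val : ↥(modularFunctionFieldFull N) →+* LaurentSeries ℚ)
  let f : ↥(Algebra.adjoin (Zl ℓ) S) →+* ↥(modularFunctionFieldFull N) :=
    algebraMap ↥(Algebra.adjoin (Zl ℓ) S) ↥(modularFunctionFieldFull N)
  let g : ↥(Algebra.adjoin (Zl ℓ) S) →+* ↥(bigO ℓ) :=
    RingHom.codRestrict (ι.comp f) (bigO ℓ)
      (fun a => ChartOAux.isBigO_of_mem_adjoin ℓ N S hS a.1 a.2)
  have hcomp : (algebraMap ↥(bigO ℓ) (LaurentSeries ℚ)).comp g = ι.comp f :=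
    RingHom.ext fun a => rfl
  have hint : IsIntegral ↥(bigO ℓ) (x : LaurentSeries ℚ) := by
    refine ⟨p.map g, hp_monic.map g, ?_⟩
    rw [Polynomial.eval₂_map, hcomp]
    have h1 : ι (Polynomial.eval₂ f x p) = Polynomial.eval₂ (ι.comp f) (ι x) p :=
      Polynomial.hom_eval₂ p f ι x
    have h2 : Polynomial.eval₂ f x p = 0 := hp_root
    rw [h2, map_zero] at h1
    exact h1.symm
  exact isBigO_of_isIntegral hK hint

/-- The inclusion of a chart algebra into `ℚ((q))`. -/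
def chartVal (N : ℕ) [NeZero N] (S : Set ↥(modularFunctionFieldFull N)) :
    ↥(chartAlg N ℓ S) →+* LaurentSeries ℚ :=
  ((modularFunctionFieldFull N).val : ↥(modularFunctionFieldFull N) →+* LaurentSeries ℚ).comp
    ((chartAlg N ℓ S).val : ↥(chartAlg N ℓ S) →+* ↥(modularFunctionFieldFull N))

theorem chartVal_apply (N : ℕ) [NeZero N] (S : Set ↥(modularFunctionFieldFull N))
    (x : ↥(chartAlg N ℓ S)) :
    chartVal ℓ N S x = ((x : ↥(modularFunctionFieldFull N)) : LaurentSeries ℚ) := rfl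

/-- The reduction homomorphism of a chart algebra whose generators lie in `bigO`. -/
def rhoChart (N : ℕ) [NeZero N] (S : Set ↥(modularFunctionFieldFull N))
    (hS : ∀ s ∈ S, IsBigO ℓ ((s : ↥(modularFunctionFieldFull N)) : LaurentSeries ℚ)) :
    ↥(chartAlg N ℓ S) →+* LaurentSeries (ZMod ℓ) :=
  (rhoBig ℓ).comp (RingHom.codRestrict (chartVal ℓ N S) (bigO ℓ)
    (fun x => isBigO_of_mem_chartAlg ℓ N S hS x.1 x.2))

theorem rhoChart_apply (N : ℕ) [NeZero N] (S : Set ↥(modularFunctionFieldFull N))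
    (hS : ∀ s ∈ S, IsBigO ℓ ((s : ↥(modularFunctionFieldFull N)) : LaurentSeries ℚ))
    (x : ↥(chartAlg N ℓ S)) :
    rhoChart ℓ N S hS x =
      rhoBig ℓ ⟨((x : ↥(modularFunctionFieldFull N)) : LaurentSeries ℚ),
        isBigO_of_mem_chartAlg ℓ N S hS x.1 x.2⟩ := rfl

theorem hS_fin (N : ℕ) [NeZero N] : ∀ s ∈ ({jFull N} : Set ↥(modularFunctionFieldFull N)),
    IsBigO ℓ ((s : ↥(modularFunctionFieldFull N)) : LaurentSeries ℚ) := by
  intro s hs
  rw [Set.mem_singleton_iff] at hs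
  rw [hs, coe_jFull]
  exact isBigO_jq ℓ

theorem hS_inf (N : ℕ) [NeZero N] : ∀ s ∈ ({(jFull N)⁻¹} : Set ↥(modularFunctionFieldFull N)),
    IsBigO ℓ ((s : ↥(modularFunctionFieldFull N)) : LaurentSeries ℚ) := by
  intro s hs
  rw [Set.mem_singleton_iff] at hs
  rw [hs, IntermediateField.coe_inv, coe_jFull]
  exact isBigO_jq_inv ℓ

theorem hS_mid (N : ℕ) [NeZero N] :
    ∀ s ∈ ({jFull N, (jFull N)⁻¹} : Set ↥(modularFunctionFieldFull N)),
      IsBigO ℓ ((s : ↥(modularFunctionFieldFull N)) : LaurentSeries ℚ) := by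
  intro s hs
  rcases hs with hs | hs
  · exact hS_fin ℓ N s hs
  · exact hS_inf ℓ N s hs

end Fermat.Agent.S28.CAlt
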