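import Fermat.Agent.S28.ChartsAlt.Inv

/-!
# S28 Part C (CAlt): clearing denominators in `ℚ[Y][X]` (hedge copy of
`exists_clear_denom` of `InE.lean`).
-/

set_option autoImplicit false

noncomputable section

namespace Fermat.Agent.S28.CAlt

open ModularCurve ModularCurve.IgusaScheme

variable {N : ℕ} [NeZero N] {ℓ : ℕ} [Fact ℓ.Prime] {n : ℕ} {u : LaurentSeries ℤ}
  {Ψ : Polynomial (Polynomial (Zl ℓ))}

namespace ClearDenomAux

/-- Generic step: if every element of `S` has a nonzero natural multiple in the image of `f`,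
the same holds for polynomials (w.r.t. `Polynomial.map f`). -/
theorem clear_step {R S : Type*} [CommRing R] [CommRing S] (f : R →+* S)
    (h : ∀ s : S, ∃ D : ℕ, D ≠ 0 ∧ ∃ r : R, f r = (D : S) * s) (p : Polynomial S) :
    ∃ D : ℕ, D ≠ 0 ∧ ∃ p' : Polynomial R,
      Polynomial.mapRingHom f p' = (D : Polynomial S) * p := by
  induction p using Polynomial.induction_on' with
  | add p q hp hq =>
    obtain ⟨D₁, hD₁, p', hp'⟩ := hp
    obtain ⟨D₂, hD₂, q', hq'⟩ := hq
    refine ⟨D₁ * D₂, Nat.mul_ne_zero hD₁ hD₂,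
      (D₂ : Polynomial R) * p' + (D₁ : Polynomial R) * q', ?_⟩
    rw [map_add, map_mul, map_mul, hp', hq', map_natCast, map_natCast]
    push_cast
    ring
  | monomial k a =>
    obtain ⟨D, hD, r, hr⟩ := h a
    refine ⟨D, hD, Polynomial.monomial k r, ?_⟩
    rw [Polynomial.coe_mapRingHom, Polynomial.map_monomial, hr, ← Polynomial.C_eq_natCast,
      Polynomial.C_mul_monomial]

/-- Base case: every rational has a nonzero natural multiple which is an integer, hence in
`ℤ_(ℓ)`. -/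
theorem clear_base (ℓ : ℕ) (s : ℚ) :
    ∃ D : ℕ, D ≠ 0 ∧ ∃ r : Zl ℓ, (GaloisRep.ratLocalizedAt ℓ).subtype r = (D : ℚ) * s := by
  refine ⟨s.den, s.den_nz, (s.num : Zl ℓ), ?_⟩
  rw [map_intCast, Rat.den_mul_eq_num]

/-- Clearing denominators: every `c ∈ ℚ[Y][X]` has a nonzero integer multiple with coefficients
in `ℤ_(ℓ)` (even in `ℤ`). -/
theorem exists_clear_denom' (ℓ : ℕ) (c : Polynomial (Polynomial ℚ)) :
    ∃ (D : ℕ) (c' : Polynomial (Polynomial (Zl ℓ))), D ≠ 0 ∧
      c'.map (Polynomial.mapRingHom (GaloisRep.ratLocalizedAt ℓ).subtype) =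
        Polynomial.C (Polynomial.C (D : ℚ)) * c := by
  obtain ⟨D, hD, c', hc'⟩ :=
    clear_step (Polynomial.mapRingHom (GaloisRep.ratLocalizedAt ℓ).subtype)
      (clear_step (GaloisRep.ratLocalizedAt ℓ).subtype (clear_base ℓ)) c
  refine ⟨D, c', hD, ?_⟩
  rw [← Polynomial.coe_mapRingHom, hc', Polynomial.C_eq_natCast, Polynomial.C_eq_natCast]

end ClearDenomAux

end Fermat.Agent.S28.CAlt
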