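import Fermat.Agent.S28.ModL
import Fermat.Agent.S28.Alg.Gauss

/-!
# S28, Part C (alternative route, namespace `Fermat.Agent.S28.CAlt`): common definitions.
Owner: helper2.  Complete, no proofs missing.  Do not edit without asking helper2.

Notation: `Zl ℓ = ℤ_(ℓ) ⊆ ℚ`; `LaurentSeries (Zl ℓ) = ℤ_(ℓ)((q))`;
`embZ ℓ : ℤ_(ℓ)((q)) → ℚ((q))` (coefficientwise inclusion, injective);
`redZ ℓ : ℤ_(ℓ)((q)) → 𝔽_ℓ((q))` (coefficientwise reduction, kernel `ℓ·ℤ_(ℓ)((q))`).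

* `IsBigO ℓ x` : `x ∈ ℚ((q))` is a quotient `emb(C)/emb(B)` with `B` primitive (`red B ≠ 0`); these
  `x` form the discrete valuation ring `bigO ℓ` (the localisation of `ℤ_(ℓ)((q))` at the prime
  `(ℓ)`), with residue map `rhoBig ℓ : bigO ℓ →+* 𝔽_ℓ((q))`, `emb(C)/emb(B) ↦ red(C)/red(B)`.
* `IsBigK ℓ x` : `x` is a quotient `emb(C)/emb(B)`, `B ≠ 0` (the fraction field).
* `thetaJ ℓ`, `thetaJinv ℓ : ℤ_(ℓ)[Y] → ℚ((q))`, `b ↦ b(j)`, `b ↦ b(j⁻¹)`; `fieldJ ℓ = ℚ(j)`.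
* `Pkg N ℓ n u Ψ` : the conclusion of `exists_package` (`ModL.lean`).
* `lamRing ℓ u = ℤ_(ℓ)[j, u] ⊆ ℤ_(ℓ)((q))`.
-/

set_option autoImplicit false

noncomputable section

namespace Fermat.Agent.S28.CAlt

open ModularCurve ModularCurve.IgusaScheme

/-- `ℤ_(ℓ)`. -/
abbrev Zl (ℓ : ℕ) : Type := ↥(GaloisRep.ratLocalizedAt ℓ)

/-- The coefficientwise inclusion `ℤ_(ℓ)((q)) → ℚ((q))`. -/
def embZ (ℓ : ℕ) : LaurentSeries (Zl ℓ) →+* LaurentSeries ℚ :=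
  coeffMap (GaloisRep.ratLocalizedAt ℓ).subtype

/-- The coefficientwise reduction `ℤ_(ℓ)((q)) → 𝔽_ℓ((q))`. -/
def redZ (ℓ : ℕ) [Fact ℓ.Prime] : LaurentSeries (Zl ℓ) →+* LaurentSeries (ZMod ℓ) :=
  coeffMap (zlRes ℓ)

/-- `x = emb(C)/emb(B)` with `B` primitive. -/
def IsBigO (ℓ : ℕ) [Fact ℓ.Prime] (x : LaurentSeries ℚ) : Prop :=
  ∃ C B : LaurentSeries (Zl ℓ), redZ ℓ B ≠ 0 ∧ x * embZ ℓ B = embZ ℓ C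

/-- `x = emb(C)/emb(B)` with `B ≠ 0`. -/
def IsBigK (ℓ : ℕ) (x : LaurentSeries ℚ) : Prop :=
  ∃ C B : LaurentSeries (Zl ℓ), B ≠ 0 ∧ x * embZ ℓ B = embZ ℓ C

/-- The constants `ℤ_(ℓ) → ℚ((q))`. -/
def constQ (ℓ : ℕ) : Zl ℓ →+* LaurentSeries ℚ :=
  (HahnSeries.C : ℚ →+* LaurentSeries ℚ).comp (GaloisRep.ratLocalizedAt ℓ).subtype

/-- The constants `ℤ_(ℓ) → 𝔽_ℓ((q))`. -/
def constF (ℓ : ℕ) [Fact ℓ.Prime] : Zl ℓ →+* LaurentSeries (ZMod ℓ) :=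
  (HahnSeries.C : ZMod ℓ →+* LaurentSeries (ZMod ℓ)).comp (zlRes ℓ)

/-- `b ↦ b(j)`, `ℤ_(ℓ)[Y] → ℚ((q))`. -/
def thetaJ (ℓ : ℕ) : Polynomial (Zl ℓ) →+* LaurentSeries ℚ :=
  Polynomial.eval₂RingHom (constQ ℓ) (jqModC ℚ)

/-- `b ↦ b(j⁻¹)`, `ℤ_(ℓ)[Y] → ℚ((q))`. -/
def thetaJinv (ℓ : ℕ) : Polynomial (Zl ℓ) →+* LaurentSeries ℚ :=
  Polynomial.eval₂RingHom (constQ ℓ) (jqModC ℚ)⁻¹

/-- `ℚ(j) ⊆ ℚ((q))`. -/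
def fieldJ (ℓ : ℕ) : Subfield (LaurentSeries ℚ) := Subfield.closure (Set.range (thetaJ ℓ))

/-- `j ∈ ℤ_(ℓ)((q))`. -/
def jZ (ℓ : ℕ) : LaurentSeries (Zl ℓ) := jqModC (Zl ℓ)

/-- `u ∈ ℤ_(ℓ)((q))`. -/
def uZ (ℓ : ℕ) (u : LaurentSeries ℤ) : LaurentSeries (Zl ℓ) := coeffMap (Int.castRingHom (Zl ℓ)) u

/-- `b ↦ b(j)`, `ℤ_(ℓ)[Y] → ℤ_(ℓ)((q))`. -/
def evalJZ (ℓ : ℕ) : Polynomial (Zl ℓ) →+* LaurentSeries (Zl ℓ) :=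
  Polynomial.eval₂RingHom (HahnSeries.C : Zl ℓ →+* LaurentSeries (Zl ℓ)) (jZ ℓ)

/-- `Λ = ℤ_(ℓ)[j, u] ⊆ ℤ_(ℓ)((q))`. -/
def lamRing (ℓ : ℕ) (u : LaurentSeries ℤ) : Subring (LaurentSeries (Zl ℓ)) :=
  (ev2Hom (jZ ℓ) (uZ ℓ u)).range

/-- The conclusion of `exists_package` (`ModL.lean`). -/
structure Pkg (N : ℕ) [NeZero N] (ℓ : ℕ) [Fact ℓ.Prime] (n : ℕ) (u : LaurentSeries ℤ)
    (Ψ : Polynomial (Polynomial (Zl ℓ))) : Prop where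
  monic : Ψ.Monic
  deg : Ψ.natDegree = n
  root : ev2 (jqModC ℚ) (coeffMap (Int.castRingHom ℚ) u)
    (Ψ.map (Polynomial.mapRingHom (GaloisRep.ratLocalizedAt ℓ).subtype)) = 0
  indep : ∀ c : Polynomial (Polynomial (ZMod ℓ)), c.natDegree < n →
    ev2 (jqModC (ZMod ℓ)) (coeffMap (Int.castRingHom (ZMod ℓ)) u) c = 0 → c = 0
  gen : ∀ (d : ℕ) [NeZero d], d ∣ N → ∃ c a : Polynomial (Polynomial ℚ),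
    ev2 (jqModC ℚ) (coeffMap (Int.castRingHom ℚ) u) c ≠ 0 ∧
    ev2 (jqModC ℚ) (coeffMap (Int.castRingHom ℚ) u) c * qExpand ℚ d (jqModC ℚ) =
      ev2 (jqModC ℚ) (coeffMap (Int.castRingHom ℚ) u) a

theorem exists_pkg (N : ℕ) [NeZero N] (ℓ : ℕ) [Fact ℓ.Prime] (hℓN : ¬ ℓ ∣ N) :
    ∃ (n : ℕ) (u : LaurentSeries ℤ) (Ψ : Polynomial (Polynomial (Zl ℓ))), Pkg N ℓ n u Ψ := by
  obtain ⟨n, u, Ψ, h1, h2, h3, h4, h5⟩ := exists_package N ℓ hℓN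
  exact ⟨n, u, Ψ, h1, h2, h3, h4, h5⟩

end Fermat.Agent.S28.CAlt
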