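import Fermat.Agent.S28.ChartsAlt.Inv

/-!
# S28 Part C (CAlt): every element of the function field is `emb(λ)/b(j)`, `λ ∈ Λ`,
`b ∈ ℤ_(ℓ)[Y] ∖ 0`.  INTERFACE (definitions complete, statements frozen).

`{x | InE ℓ u x}` is a subfield of `ℚ((q))` (inverses: `Pkg.exists_inv`) containing `ℚ` and the
generators `j(q^d)`, `d ∣ N` (`Pkg.gen`, after clearing denominators); conclude with
`IntermediateField.adjoin_induction`.
-/

set_option autoImplicit false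

noncomputable section

namespace Fermat.Agent.S28.CAlt

open ModularCurve ModularCurve.IgusaScheme

/-- `x = emb(λ)/b(j)` with `λ ∈ Λ`, `b ≠ 0`. -/
def InE (ℓ : ℕ) (u : LaurentSeries ℤ) (x : LaurentSeries ℚ) : Prop :=
  ∃ lam ∈ lamRing ℓ u, ∃ b : Polynomial (Zl ℓ), b ≠ 0 ∧ x * thetaJ ℓ b = embZ ℓ lam

variable {N : ℕ} [NeZero N] {ℓ : ℕ} [Fact ℓ.Prime] {n : ℕ} {u : LaurentSeries ℤ}
  {Ψ : Polynomial (Polynomial (Zl ℓ))}

namespace InEAux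

/-- Clearing denominators in one variable. -/
theorem clear_denom_poly (ℓ : ℕ) (p : Polynomial ℚ) :
    ∃ (D : ℕ) (p' : Polynomial (Zl ℓ)), D ≠ 0 ∧
      p'.map (GaloisRep.ratLocalizedAt ℓ).subtype = Polynomial.C (D : ℚ) * p := by
  induction p using Polynomial.induction_on' with
  | add p q hp hq =>
    obtain ⟨D₁, p₁, hD₁, h₁⟩ := hp
    obtain ⟨D₂, p₂, hD₂, h₂⟩ := hq
    refine ⟨D₁ * D₂, Polynomial.C ((D₂ : ℕ) : Zl ℓ) * p₁ + Polynomial.C ((D₁ : ℕ) : Zl ℓ) * p₂,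
      mul_ne_zero hD₁ hD₂, ?_⟩
    rw [Polynomial.map_add, Polynomial.map_mul, Polynomial.map_mul, Polynomial.map_C,
      Polynomial.map_C, h₁, h₂]
    simp only [map_natCast, Nat.cast_mul, map_mul]
    ring
  | monomial k r =>
    refine ⟨r.den, Polynomial.monomial k ((r.num : ℤ) : Zl ℓ), r.den_nz, ?_⟩
    rw [Polynomial.map_monomial, Polynomial.C_mul_monomial, map_intCast, Rat.den_mul_eq_num]

/-- `(D : ℤ_(ℓ)) ≠ 0` for a nonzero natural number `D`. -/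
theorem natCast_zl_ne_zero (ℓ : ℕ) {D : ℕ} (hD : D ≠ 0) : ((D : ℕ) : Zl ℓ) ≠ 0 :=
  Nat.cast_ne_zero.mpr hD

/-- The structure map `ℚ → ℚ((q))` is the constant map. -/
theorem algebraMap_eq_C (r : ℚ) :
    algebraMap ℚ (LaurentSeries ℚ) r = (HahnSeries.C r : LaurentSeries ℚ) :=
  RingHom.congr_fun (RingHom.ext_rat (algebraMap ℚ (LaurentSeries ℚ))
    (HahnSeries.C : ℚ →+* LaurentSeries ℚ)) r

/-- `thetaJ` on constant polynomials. -/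
theorem thetaJ_C (ℓ : ℕ) (a : Zl ℓ) :
    thetaJ ℓ (Polynomial.C a) = HahnSeries.C (a : ℚ) := by
  show Polynomial.eval₂ (constQ ℓ) (jqModC ℚ) (Polynomial.C a) = _
  rw [Polynomial.eval₂_C]
  rfl

/-- `thetaJ` on natural constants. -/
theorem thetaJ_C_natCast (ℓ : ℕ) (D : ℕ) :
    thetaJ ℓ (Polynomial.C ((D : ℕ) : Zl ℓ)) = HahnSeries.C ((D : ℕ) : ℚ) := by
  rw [thetaJ_C]
  congr 1

/-- `thetaJ` on integer constants. -/
theorem thetaJ_C_intCast (ℓ : ℕ) (D : ℤ) :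
    thetaJ ℓ (Polynomial.C ((D : ℤ) : Zl ℓ)) = HahnSeries.C ((D : ℤ) : ℚ) := by
  rw [thetaJ_C]
  congr 1

end InEAux

/-- Clearing denominators: every `c ∈ ℚ[Y][X]` has a nonzero integer multiple with coefficients
in `ℤ_(ℓ)` (even in `ℤ`). -/
theorem exists_clear_denom (ℓ : ℕ) (c : Polynomial (Polynomial ℚ)) :
    ∃ (D : ℕ) (c' : Polynomial (Polynomial (Zl ℓ))), D ≠ 0 ∧
      c'.map (Polynomial.mapRingHom (GaloisRep.ratLocalizedAt ℓ).subtype) =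
        Polynomial.C (Polynomial.C (D : ℚ)) * c := by
  induction c using Polynomial.induction_on' with
  | add p q hp hq =>
    obtain ⟨D₁, p₁, hD₁, h₁⟩ := hp
    obtain ⟨D₂, p₂, hD₂, h₂⟩ := hq
    refine ⟨D₁ * D₂, Polynomial.C (Polynomial.C ((D₂ : ℕ) : Zl ℓ)) * p₁ +
      Polynomial.C (Polynomial.C ((D₁ : ℕ) : Zl ℓ)) * p₂, mul_ne_zero hD₁ hD₂, ?_⟩
    rw [Polynomial.map_add, Polynomial.map_mul, Polynomial.map_mul, Polynomial.map_C,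
      Polynomial.map_C, h₁, h₂, Polynomial.coe_mapRingHom, Polynomial.map_C, Polynomial.map_C]
    simp only [map_natCast, Nat.cast_mul, map_mul]
    ring
  | monomial k r =>
    obtain ⟨D, r', hD, hr⟩ := InEAux.clear_denom_poly ℓ r
    refine ⟨D, Polynomial.monomial k r', hD, ?_⟩
    rw [Polynomial.map_monomial, Polynomial.C_mul_monomial, Polynomial.coe_mapRingHom, hr]

theorem Pkg.inE_add (h : Pkg N ℓ n u Ψ) {x y : LaurentSeries ℚ} (hx : InE ℓ u x)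
    (hy : InE ℓ u y) : InE ℓ u (x + y) := by
  have _hpkg := h
  obtain ⟨lam, hlam, b, hb, hxb⟩ := hx
  obtain ⟨lam', hlam', b', hb', hyb⟩ := hy
  refine ⟨lam * evalJZ ℓ b' + lam' * evalJZ ℓ b,
    (lamRing ℓ u).add_mem ((lamRing ℓ u).mul_mem hlam (evalJZ_mem_lamRing b'))
      ((lamRing ℓ u).mul_mem hlam' (evalJZ_mem_lamRing b)), b * b', mul_ne_zero hb hb', ?_⟩
  rw [map_mul, map_add, map_mul, map_mul, ← hxb, ← hyb, ← thetaJ_eq_embZ, ← thetaJ_eq_embZ]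
  ring

theorem Pkg.inE_mul (h : Pkg N ℓ n u Ψ) {x y : LaurentSeries ℚ} (hx : InE ℓ u x)
    (hy : InE ℓ u y) : InE ℓ u (x * y) := by
  have _hpkg := h
  obtain ⟨lam, hlam, b, hb, hxb⟩ := hx
  obtain ⟨lam', hlam', b', hb', hyb⟩ := hy
  refine ⟨lam * lam', (lamRing ℓ u).mul_mem hlam hlam', b * b', mul_ne_zero hb hb', ?_⟩
  rw [map_mul, map_mul, ← hxb, ← hyb]
  ring

theorem Pkg.inE_inv (h : Pkg N ℓ n u Ψ) {x : LaurentSeries ℚ} (hx : InE ℓ u x) :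
    InE ℓ u x⁻¹ := by
  by_cases hx0 : x = 0
  · refine ⟨0, (lamRing ℓ u).zero_mem, 1, one_ne_zero, ?_⟩
    rw [hx0, inv_zero, zero_mul, map_zero]
  obtain ⟨lam, hlam, b, hb, hxb⟩ := hx
  have hθb : thetaJ ℓ b ≠ 0 := by
    intro h0
    apply hb
    apply thetaJ_injective ℓ
    rw [h0, map_zero]
  have hlam0 : lam ≠ 0 := by
    intro h0
    rw [h0, map_zero] at hxb
    rcases mul_eq_zero.mp hxb with h1 | h1
    · exact hx0 h1
    · exact hθb h1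
  obtain ⟨lam', hlam', b', hb', hmul⟩ := h.exists_inv lam hlam hlam0
  refine ⟨evalJZ ℓ b * lam', (lamRing ℓ u).mul_mem (evalJZ_mem_lamRing b) hlam', b', hb', ?_⟩
  have h1 : embZ ℓ lam * embZ ℓ lam' = thetaJ ℓ b' := by
    rw [← map_mul, hmul, ← thetaJ_eq_embZ]
  rw [map_mul, ← thetaJ_eq_embZ, ← h1, ← hxb]
  field_simp

theorem Pkg.inE_algebraMap (h : Pkg N ℓ n u Ψ) (r : ℚ) :
    InE ℓ u (algebraMap ℚ (LaurentSeries ℚ) r) := by
  refine ⟨evalJZ ℓ (Polynomial.C ((r.num : ℤ) : Zl ℓ)), evalJZ_mem_lamRing _,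
    Polynomial.C ((r.den : ℕ) : Zl ℓ),
    Polynomial.C_ne_zero.mpr (InEAux.natCast_zl_ne_zero ℓ r.den_nz), ?_⟩
  have _hpkg := h
  rw [← thetaJ_eq_embZ, InEAux.thetaJ_C_natCast, InEAux.thetaJ_C_intCast,
    InEAux.algebraMap_eq_C, ← map_mul, Rat.mul_den_eq_num]

theorem Pkg.inE_gen (h : Pkg N ℓ n u Ψ) (d : ℕ) [NeZero d] (hd : d ∣ N) :
    InE ℓ u (qExpand ℚ d jq) := by
  obtain ⟨c, a, hc0, hca⟩ := h.gen d hd
  obtain ⟨Dc, cZ, hDc, hcZ⟩ := exists_clear_denom ℓ c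
  obtain ⟨Da, aZ, hDa, haZ⟩ := exists_clear_denom ℓ a
  have h2 : embZ ℓ (ev2 (jZ ℓ) (uZ ℓ u) cZ) = HahnSeries.C ((Dc : ℕ) : ℚ) *
      ev2 (jqModC ℚ) (coeffMap (Int.castRingHom ℚ) u) c := by
    rw [embZ_ev2, hcZ, ev2_mul, ev2_C_C]
  have h3 : embZ ℓ (ev2 (jZ ℓ) (uZ ℓ u) aZ) = HahnSeries.C ((Da : ℕ) : ℚ) *
      ev2 (jqModC ℚ) (coeffMap (Int.castRingHom ℚ) u) a := by
    rw [embZ_ev2, haZ, ev2_mul, ev2_C_C]
  have hCc : (HahnSeries.C ((Dc : ℕ) : ℚ) : LaurentSeries ℚ) ≠ 0 :=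
    HahnSeries.C_ne_zero (Nat.cast_ne_zero.mpr hDc)
  have hlamc0 : ev2 (jZ ℓ) (uZ ℓ u) cZ ≠ 0 := by
    intro h0
    rw [h0, map_zero] at h2
    exact (mul_ne_zero hCc hc0) h2.symm
  obtain ⟨lam', hlam', b, hb, hmul⟩ :=
    h.exists_inv (ev2 (jZ ℓ) (uZ ℓ u) cZ) (ev2_mem_lamRing cZ) hlamc0
  have h4 : embZ ℓ (ev2 (jZ ℓ) (uZ ℓ u) cZ) * embZ ℓ lam' = thetaJ ℓ b := by
    rw [← map_mul, hmul, ← thetaJ_eq_embZ]
  refine ⟨evalJZ ℓ (Polynomial.C ((Dc : ℕ) : Zl ℓ)) * ev2 (jZ ℓ) (uZ ℓ u) aZ * lam',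
    (lamRing ℓ u).mul_mem ((lamRing ℓ u).mul_mem (evalJZ_mem_lamRing _) (ev2_mem_lamRing aZ))
      hlam', b * Polynomial.C ((Da : ℕ) : Zl ℓ),
    mul_ne_zero hb (Polynomial.C_ne_zero.mpr (InEAux.natCast_zl_ne_zero ℓ hDa)), ?_⟩
  have hca' : ev2 (jqModC ℚ) (coeffMap (Int.castRingHom ℚ) u) c * qExpand ℚ d jq =
      ev2 (jqModC ℚ) (coeffMap (Int.castRingHom ℚ) u) a := hca
  rw [map_mul, map_mul, map_mul, ← thetaJ_eq_embZ, InEAux.thetaJ_C_natCast,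
    InEAux.thetaJ_C_natCast, ← h4, h2, h3, ← hca']
  ring

theorem Pkg.inE_of_mem_full (h : Pkg N ℓ n u Ψ) {x : LaurentSeries ℚ}
    (hx : x ∈ modularFunctionFieldFull N) : InE ℓ u x := by
  have hx' : x ∈ IntermediateField.adjoin ℚ (divisorExpansions N) := hx
  refine IntermediateField.adjoin_induction ℚ (p := fun y _ => InE ℓ u y) ?_ ?_ ?_ ?_ ?_ hx'
  · intro y hy
    obtain ⟨d, hd0, hd, rfl⟩ := hy
    exact h.inE_gen d hd
  · intro r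
    exact h.inE_algebraMap r
  · intro y z _ _ hy hz
    exact h.inE_add hy hz
  · intro y _ hy
    exact h.inE_inv hy
  · intro y z _ _ hy hz
    exact h.inE_mul hy hz

end Fermat.Agent.S28.CAlt
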