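import Fermat.Agent.S28.ChartsAlt.BigK

/-!
# S28 Part C (CAlt): `bigO ℓ` is integrally closed in the field of quotients.
INTERFACE (statement frozen).

Proof: normal form `x = ℓ^m emb(C₀)/emb(B₀)`; if `m < 0` put `z = ℓ^{-m} x ∈ bigO`, a root of
the monic polynomial `scaleRoots p (ℓ^{-m})` whose lower coefficients are divisible by `ℓ`;
applying `rhoBig` gives `rhoBig(z)^r = 0`, but `rhoBig z = red C₀ / red B₀ ≠ 0`.
-/

set_option autoImplicit false

noncomputable section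

namespace Fermat.Agent.S28.CAlt

open ModularCurve ModularCurve.IgusaScheme

variable (ℓ : ℕ) [Fact ℓ.Prime]

namespace IntClosedAux

/-- Evaluating `scaleRoots p s` (for monic `p`) through a ring homomorphism `ρ` which kills `s`
leaves only the top power. -/
theorem eval₂_scaleRoots_of_map_eq_zero {A B : Type*} [CommRing A] [CommRing B] (ρ : A →+* B)
    {p : Polynomial A} (hp : p.Monic) {s : A} (hs : ρ s = 0) (w : B) :
    Polynomial.eval₂ ρ w (Polynomial.scaleRoots p s) = w ^ p.natDegree := by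
  rw [Polynomial.eval₂_eq_sum_range, Polynomial.natDegree_scaleRoots, Finset.sum_range_succ,
    Finset.sum_eq_zero, zero_add, Polynomial.coeff_scaleRoots, Nat.sub_self, pow_zero, mul_one,
    hp.coeff_natDegree, map_one, one_mul]
  intro i hi
  have hi' : i < p.natDegree := Finset.mem_range.mp hi
  have hne : p.natDegree - i ≠ 0 := by omega
  rw [Polynomial.coeff_scaleRoots, map_mul, map_pow, hs, zero_pow hne, mul_zero, zero_mul]

/-- If `z ∈ A` is a root of `scaleRoots p s` with `p` monic and `ρ s = 0`, where `ρ` is a ring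
homomorphism into a reduced ring, then `ρ z = 0`. -/
theorem map_eq_zero_of_eval_scaleRoots {A B : Type*} [CommRing A] [CommRing B] [IsReduced B]
    (ρ : A →+* B) {p : Polynomial A} (hp : p.Monic) {s : A} (hs : ρ s = 0) {z : A}
    (hz : Polynomial.eval z (Polynomial.scaleRoots p s) = 0) : ρ z = 0 := by
  have h1 : Polynomial.eval₂ ρ (ρ z) (Polynomial.scaleRoots p s) = 0 := by
    rw [Polynomial.eval₂_at_apply, hz, map_zero]
  rw [eval₂_scaleRoots_of_map_eq_zero ρ hp hs] at h1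
  exact eq_zero_of_pow_eq_zero h1

/-- The residue map kills the positive powers of `ℓ`. -/
theorem rhoBig_ell_pow {k : ℕ} (hk : k ≠ 0) :
    rhoBig ℓ (((ℓ : ℕ) : ↥(bigO ℓ)) ^ k) = 0 := by
  rw [map_pow, rhoBig_natCast_ell, zero_pow hk]

/-- The case of a negative exponent in the normal form is impossible for an integral element:
if `ℓ^k · x = emb(C₀)/emb(B₀)` with `k ≥ 1`, `B₀` primitive and `x` integral over `bigO ℓ`,
then `C₀` is not primitive. -/
theorem redZ_eq_zero_of_isIntegral {x : LaurentSeries ℚ} (hint : IsIntegral ↥(bigO ℓ) x)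
    {k : ℕ} (hk : k ≠ 0) (C₀ B₀ : LaurentSeries (Zl ℓ)) (hB₀ : redZ ℓ B₀ ≠ 0)
    (h : ((ℓ : ℕ) : LaurentSeries ℚ) ^ k * x * embZ ℓ B₀ = embZ ℓ C₀) : redZ ℓ C₀ = 0 := by
  obtain ⟨p, hp, hroot⟩ := hint
  -- the scaling factor `s = ℓ^k ∈ bigO ℓ`
  set s : ↥(bigO ℓ) := ((ℓ : ℕ) : ↥(bigO ℓ)) ^ k with hs
  have hsL : algebraMap ↥(bigO ℓ) (LaurentSeries ℚ) s = ((ℓ : ℕ) : LaurentSeries ℚ) ^ k := by
    rw [hs, map_pow, map_natCast]
  -- `z = ℓ^k x` lies in `bigO ℓ`
  have hz : IsBigO ℓ (((ℓ : ℕ) : LaurentSeries ℚ) ^ k * x) := ⟨C₀, B₀, hB₀, h⟩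
  set z : ↥(bigO ℓ) := ⟨((ℓ : ℕ) : LaurentSeries ℚ) ^ k * x, hz⟩ with hzdef
  -- `z` is a root of `scaleRoots p s`
  have hzroot : Polynomial.eval z (Polynomial.scaleRoots p s) = 0 := by
    have h1 := Polynomial.scaleRoots_eval₂_eq_zero (algebraMap ↥(bigO ℓ) (LaurentSeries ℚ))
      (s := s) hroot
    rw [hsL] at h1
    have h2 : (algebraMap ↥(bigO ℓ) (LaurentSeries ℚ)) z =
        ((ℓ : ℕ) : LaurentSeries ℚ) ^ k * x := rfl
    rw [← h2, Polynomial.eval₂_at_apply] at h1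
    have hinj : Function.Injective (algebraMap ↥(bigO ℓ) (LaurentSeries ℚ)) :=
      Subtype.val_injective
    exact hinj (by rw [h1, map_zero])
  -- hence `rhoBig z = 0`
  have hρz : rhoBig ℓ z = 0 :=
    map_eq_zero_of_eval_scaleRoots (rhoBig ℓ) hp (rhoBig_ell_pow ℓ hk) hzroot
  -- but `rhoBig z * red B₀ = red C₀`
  have hspec := rhoBig_spec ℓ z C₀ B₀ hB₀ h
  rw [hρz, zero_mul] at hspec
  exact hspec.symm

end IntClosedAux

variable {ℓ} in
theorem isBigO_of_isIntegral {x : LaurentSeries ℚ} (hK : IsBigK ℓ x)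
    (hint : IsIntegral ↥(bigO ℓ) x) : IsBigO ℓ x := by
  by_cases hx0 : x = 0
  · rw [hx0]
    exact isBigO_zero ℓ
  obtain ⟨m, C₀, B₀, hC₀, hB₀, hx⟩ := hK.normal_form hx0
  have hℓ : ((ℓ : ℕ) : LaurentSeries ℚ) ≠ 0 := natCast_ell_LQ_ne_zero ℓ
  rcases le_or_gt 0 m with hm | hm
  · -- nonnegative exponent: `x = emb(ℓ^k C₀)/emb(B₀)`
    obtain ⟨k, rfl⟩ := Int.eq_ofNat_of_zero_le hm
    refine ⟨((ℓ : ℕ) : LaurentSeries (Zl ℓ)) ^ k * C₀, B₀, hB₀, ?_⟩
    rw [hx, zpow_natCast, map_mul, map_pow, map_natCast]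
  · -- negative exponent: impossible
    exfalso
    obtain ⟨k, hk⟩ := Int.eq_ofNat_of_zero_le (show 0 ≤ -m by omega)
    have hk0 : k ≠ 0 := by omega
    have hm' : m = -(k : ℤ) := by omega
    apply hC₀
    refine IntClosedAux.redZ_eq_zero_of_isIntegral ℓ hint hk0 C₀ B₀ hB₀ ?_
    rw [mul_assoc, hx, hm', zpow_neg, zpow_natCast, ← mul_assoc,
      mul_inv_cancel₀ (pow_ne_zero k hℓ), one_mul]

end Fermat.Agent.S28.CAlt
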