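import Fermat.Agent.S28.ChartsAlt.Lam

/-!
# S28 Part C (CAlt): inversion in `Λ` up to `ℤ_(ℓ)[j]`.  INTERFACE (statement frozen).

`lam ≠ 0` is integral over `ℤ_(ℓ)[j]` (`Pkg.isIntegral_lam`) in the domain `ℤ_(ℓ)((q))`: take a
monic equation, divide by powers of `lam` until the constant term `p₀ ≠ 0`
(`Polynomial.divX_mul_X_add`); then `lam · (-(divX p)(lam)) = p₀ = b(j)`, `b ≠ 0`.
-/

set_option autoImplicit false

noncomputable section

namespace Fermat.Agent.S28.CAlt

open ModularCurve ModularCurve.IgusaScheme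

namespace InvAux

/-- In a domain `A`, let `x ≠ 0` be integral over a subring `R`, and let `Λ` be a subring
containing `R` and `x`.  Then `x` divides, inside `Λ`, a nonzero element of `R`. -/
theorem exists_mul_eq_of_isIntegral {A : Type*} [CommRing A] [IsDomain A] (R Λ : Subring A)
    (hRΛ : R ≤ Λ) (x : A) (hxΛ : x ∈ Λ) (hx0 : x ≠ 0) (hint : IsIntegral R x) :
    ∃ y ∈ Λ, ∃ r ∈ R, r ≠ 0 ∧ x * y = r := by
  obtain ⟨p, hpm, hp⟩ := hint
  -- strong induction on the degree of a monic equation of `x`
  have key : ∀ d : ℕ, ∀ p : Polynomial R, p.Monic → p.natDegree = d →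
      Polynomial.eval₂ (algebraMap R A) x p = 0 → ∃ y ∈ Λ, ∃ r ∈ R, r ≠ 0 ∧ x * y = r := by
    intro d
    induction d using Nat.strong_induction_on with
    | _ d ih =>
      intro p hpm hd hp
      -- the value at `x` of the quotient of `p` by `X` lies in `Λ`
      have hmem : Polynomial.eval₂ (algebraMap R A) x p.divX ∈ Λ := by
        rw [Polynomial.eval₂_eq_sum_range]
        refine Subring.sum_mem _ (fun i _ => ?_)
        have hci : algebraMap R A (p.divX.coeff i) ∈ Λ := hRΛ (p.divX.coeff i).2
        exact Subring.mul_mem _ hci (Subring.pow_mem _ hxΛ i)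
      -- `p(x) = (divX p)(x) * x + p₀`
      have hdecomp : Polynomial.eval₂ (algebraMap R A) x p.divX * x
          + ((p.coeff 0 : R) : A) = 0 := by
        have h1 := congrArg (Polynomial.eval₂ (algebraMap R A) x) (Polynomial.divX_mul_X_add p)
        rw [Polynomial.eval₂_add, Polynomial.eval₂_mul, Polynomial.eval₂_X, Polynomial.eval₂_C,
          hp] at h1
        exact h1
      by_cases hc : p.coeff 0 = 0
      · -- the constant term vanishes: divide the equation by `x`
        have hq : Polynomial.eval₂ (algebraMap R A) x p.divX = 0 := by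
          rw [hc, ZeroMemClass.coe_zero, add_zero] at hdecomp
          rcases mul_eq_zero.1 hdecomp with h | h
          · exact h
          · exact absurd h hx0
        have hdpos : 0 < p.natDegree := by
          by_contra hd0
          have h1 : p = 1 :=
            Polynomial.eq_one_of_monic_natDegree_zero hpm (Nat.eq_zero_of_not_pos hd0)
          rw [h1, Polynomial.eval₂_one] at hp
          exact one_ne_zero hp
        have hqdeg : p.divX.natDegree = p.natDegree - 1 :=
          Polynomial.natDegree_divX_eq_natDegree_tsub_one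
        have hqm : p.divX.Monic := by
          unfold Polynomial.Monic Polynomial.leadingCoeff
          rw [hqdeg, Polynomial.coeff_divX, Nat.sub_add_cancel hdpos]
          exact hpm.coeff_natDegree
        have hlt : p.natDegree - 1 < d := by
          rw [← hd]
          exact Nat.sub_lt hdpos Nat.one_pos
        exact ih (p.natDegree - 1) hlt p.divX hqm hqdeg hq
      · -- the constant term is nonzero
        refine ⟨-(Polynomial.eval₂ (algebraMap R A) x p.divX), Subring.neg_mem _ hmem,
          ((p.coeff 0 : R) : A), (p.coeff 0).2, ?_, ?_⟩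
        · intro h
          apply hc
          apply Subtype.ext
          rw [h, ZeroMemClass.coe_zero]
        · linear_combination (-1 : A) * hdecomp
  exact key _ p hpm rfl hp

end InvAux

variable {N : ℕ} [NeZero N] {ℓ : ℕ} [Fact ℓ.Prime] {n : ℕ} {u : LaurentSeries ℤ}
  {Ψ : Polynomial (Polynomial (Zl ℓ))}

theorem Pkg.exists_inv (h : Pkg N ℓ n u Ψ) (lam : LaurentSeries (Zl ℓ))
    (hlam : lam ∈ lamRing ℓ u) (h0 : lam ≠ 0) :
    ∃ lam' ∈ lamRing ℓ u, ∃ b : Polynomial (Zl ℓ), b ≠ 0 ∧ lam * lam' = evalJZ ℓ b := by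
  have hRΛ : (evalJZ ℓ).range ≤ lamRing ℓ u := by
    rintro r ⟨b, rfl⟩
    exact evalJZ_mem_lamRing b
  obtain ⟨y, hy, r, ⟨b, hb⟩, hr0, hxy⟩ :=
    InvAux.exists_mul_eq_of_isIntegral (evalJZ ℓ).range (lamRing ℓ u) hRΛ lam hlam h0
      (h.isIntegral_lam lam hlam)
  refine ⟨y, hy, b, ?_, ?_⟩
  · intro hb0
    apply hr0
    rw [← hb, hb0, map_zero]
  · rw [hxy, hb]

end Fermat.Agent.S28.CAlt
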