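import Fermat.Agent.S28.ChartsAlt.ThetaTr

/-!
# S28 Part C (CAlt): the ring `Λ = ℤ_(ℓ)[j, u] ⊆ ℤ_(ℓ)((q))` of a package.
INTERFACE (statements frozen).

`lamRing ℓ u = (ev2Hom (jZ ℓ) (uZ ℓ u)).range`; `Pkg N ℓ n u Ψ` is the conclusion of
`exists_package` (see `ChartsAlt/Defs.lean`).  `ev2`, `coeffMap_ev2`: `Fermat/Agent/S28/Defs.lean`.
-/

set_option autoImplicit false

noncomputable section

namespace Fermat.Agent.S28.CAlt

open ModularCurve ModularCurve.IgusaScheme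

variable {N : ℕ} [NeZero N] {ℓ : ℕ} [Fact ℓ.Prime] {n : ℕ} {u : LaurentSeries ℤ}
  {Ψ : Polynomial (Polynomial (Zl ℓ))}

omit [Fact ℓ.Prime] in
theorem ev2_mem_lamRing (c : Polynomial (Polynomial (Zl ℓ))) :
    ev2 (jZ ℓ) (uZ ℓ u) c ∈ lamRing ℓ u := by
  exact ⟨c, rfl⟩

omit [Fact ℓ.Prime] in
theorem mem_lamRing_iff {lam : LaurentSeries (Zl ℓ)} :
    lam ∈ lamRing ℓ u ↔ ∃ c : Polynomial (Polynomial (Zl ℓ)), ev2 (jZ ℓ) (uZ ℓ u) c = lam := by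
  exact Iff.rfl

omit [Fact ℓ.Prime] in
theorem evalJZ_mem_lamRing (b : Polynomial (Zl ℓ)) : evalJZ ℓ b ∈ lamRing ℓ u := by
  refine mem_lamRing_iff.mpr ⟨Polynomial.C b, ?_⟩
  rw [ev2_C]
  rfl

omit [Fact ℓ.Prime] in
/-- `emb(c(j,u)) = c_ℚ(j,u)`. -/
theorem embZ_ev2 (c : Polynomial (Polynomial (Zl ℓ))) :
    embZ ℓ (ev2 (jZ ℓ) (uZ ℓ u) c) =
      ev2 (jqModC ℚ) (coeffMap (Int.castRingHom ℚ) u)
        (c.map (Polynomial.mapRingHom (GaloisRep.ratLocalizedAt ℓ).subtype)) := by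
  have h1 : coeffMap (GaloisRep.ratLocalizedAt ℓ).subtype (jZ ℓ) = jqModC ℚ :=
    coeffMap_jqModC _
  have h2 : coeffMap (GaloisRep.ratLocalizedAt ℓ).subtype (uZ ℓ u)
      = coeffMap (Int.castRingHom ℚ) u := by
    unfold uZ
    rw [coeffMap_coeffMap]
    exact coeffMap_congr (RingHom.ext_int _ _) u
  unfold embZ
  rw [coeffMap_ev2, h1, h2]

/-- `red(c(j,u)) = c̄(j̄,ū)`. -/
theorem redZ_ev2 (c : Polynomial (Polynomial (Zl ℓ))) :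
    redZ ℓ (ev2 (jZ ℓ) (uZ ℓ u) c) =
      ev2 (jqModC (ZMod ℓ)) (coeffMap (Int.castRingHom (ZMod ℓ)) u)
        (c.map (Polynomial.mapRingHom (zlRes ℓ))) := by
  have h1 : coeffMap (zlRes ℓ) (jZ ℓ) = jqModC (ZMod ℓ) := coeffMap_jqModC _
  have h2 : coeffMap (zlRes ℓ) (uZ ℓ u) = coeffMap (Int.castRingHom (ZMod ℓ)) u := by
    unfold uZ
    rw [coeffMap_coeffMap]
    exact coeffMap_congr (RingHom.ext_int _ _) u
  unfold redZ
  rw [coeffMap_ev2, h1, h2]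

/-- `Ψ(j, u) = 0` in `ℤ_(ℓ)((q))`. -/
theorem Pkg.root_Z (h : Pkg N ℓ n u Ψ) : ev2 (jZ ℓ) (uZ ℓ u) Ψ = 0 := by
  apply embZ_injective ℓ
  rw [embZ_ev2, h.root, map_zero]

/-- Every element of `Λ` is `c(j,u)` with `deg_X c < n` (`Polynomial.modByMonic`). -/
theorem Pkg.exists_lowdeg (h : Pkg N ℓ n u Ψ) (c : Polynomial (Polynomial (Zl ℓ))) :
    ∃ c' : Polynomial (Polynomial (Zl ℓ)), c'.natDegree < n ∧
      ev2 (jZ ℓ) (uZ ℓ u) c' = ev2 (jZ ℓ) (uZ ℓ u) c := by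
  have hΨ1 : Ψ ≠ 1 := by
    intro h1
    have h2 := h.root_Z
    rw [h1, ev2_one] at h2
    exact one_ne_zero h2
  refine ⟨c %ₘ Ψ, ?_, ?_⟩
  · have h3 := Polynomial.natDegree_modByMonic_lt c h.monic hΨ1
    rwa [h.deg] at h3
  · have h4 := congrArg (ev2 (jZ ℓ) (uZ ℓ u)) (Polynomial.modByMonic_add_div c Ψ)
    rw [ev2_add, ev2_mul, h.root_Z, zero_mul, add_zero] at h4
    exact h4

namespace LamAux

/-- A polynomial in `ℤ_(ℓ)[Y][X]` which vanishes mod `ℓ` is divisible by `ℓ`. -/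
theorem exists_eq_C_C_mul {ℓ : ℕ} [Fact ℓ.Prime] (c : Polynomial (Polynomial (Zl ℓ)))
    (hc : c.map (Polynomial.mapRingHom (zlRes ℓ)) = 0) :
    ∃ c' : Polynomial (Polynomial (Zl ℓ)),
      c = Polynomial.C (Polynomial.C ((ℓ : ℕ) : Zl ℓ)) * c' := by
  have hmem : c ∈ Ideal.map (Polynomial.C : Polynomial (Zl ℓ) →+* Polynomial (Polynomial (Zl ℓ)))
      (Ideal.span {Polynomial.C ((ℓ : ℕ) : Zl ℓ)}) := by
    rw [Ideal.mem_map_C_iff]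
    intro i
    have hi : (c.coeff i).map (zlRes ℓ) = 0 := by
      have h1 := congrArg (fun p => p.coeff i) hc
      simpa [Polynomial.coeff_map] using h1
    obtain ⟨b', hb'⟩ := exists_eq_C_mul_of_map_eq_zero ℓ (c.coeff i) hi
    rw [Ideal.mem_span_singleton']
    exact ⟨b', by rw [hb', mul_comm]⟩
  rw [Ideal.map_span, Set.image_singleton, Ideal.mem_span_singleton'] at hmem
  obtain ⟨a, ha⟩ := hmem
  exact ⟨a, by rw [← ha, mul_comm]⟩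

/-- `ℓ ≠ 0` in `ℤ_(ℓ)((q))`. -/
theorem natCast_ell_ne_zero (ℓ : ℕ) [Fact ℓ.Prime] :
    ((ℓ : ℕ) : LaurentSeries (Zl ℓ)) ≠ 0 := by
  intro h0
  apply natCast_ell_LQ_ne_zero ℓ
  have h1 := congrArg (embZ ℓ) h0
  rwa [map_natCast, map_zero] at h1

end LamAux

/-- (K2) `Λ ∩ ℓ·ℤ_(ℓ)((q)) = ℓ·Λ`. -/
theorem Pkg.red_eq_zero (h : Pkg N ℓ n u Ψ) (lam : LaurentSeries (Zl ℓ))
    (hlam : lam ∈ lamRing ℓ u) (hred : redZ ℓ lam = 0) :
    ∃ lam' ∈ lamRing ℓ u, lam = ((ℓ : ℕ) : LaurentSeries (Zl ℓ)) * lam' := by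
  obtain ⟨c₀, rfl⟩ := mem_lamRing_iff.mp hlam
  obtain ⟨c, hcdeg, hc⟩ := h.exists_lowdeg c₀
  rw [← hc] at hred ⊢
  rw [redZ_ev2] at hred
  have hmap : c.map (Polynomial.mapRingHom (zlRes ℓ)) = 0 :=
    h.indep _ (lt_of_le_of_lt (Polynomial.natDegree_map_le) hcdeg) hred
  obtain ⟨c', hc'⟩ := LamAux.exists_eq_C_C_mul c hmap
  refine ⟨ev2 (jZ ℓ) (uZ ℓ u) c', ev2_mem_lamRing c', ?_⟩
  rw [hc', ev2_mul, ev2_C_C, map_natCast]

/-- Every nonzero element of `Λ` is `ℓ^k` times a primitive element of `Λ`. -/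
theorem Pkg.exists_prim_lam (h : Pkg N ℓ n u Ψ) (lam : LaurentSeries (Zl ℓ))
    (hlam : lam ∈ lamRing ℓ u) (h0 : lam ≠ 0) :
    ∃ (k : ℕ), ∃ lam₀ ∈ lamRing ℓ u, redZ ℓ lam₀ ≠ 0 ∧
      lam = ((ℓ : ℕ) : LaurentSeries (Zl ℓ)) ^ k * lam₀ := by
  obtain ⟨k, C₀, hC₀, hk⟩ := exists_pow_mul_prim ℓ lam h0
  have key : ∀ (k : ℕ) (lam : LaurentSeries (Zl ℓ)), lam ∈ lamRing ℓ u →
      lam = ((ℓ : ℕ) : LaurentSeries (Zl ℓ)) ^ k * C₀ →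
      ∃ (k' : ℕ), ∃ lam₀ ∈ lamRing ℓ u, redZ ℓ lam₀ ≠ 0 ∧
        lam = ((ℓ : ℕ) : LaurentSeries (Zl ℓ)) ^ k' * lam₀ := by
    intro k
    induction k with
    | zero =>
      intro lam hlam hk
      rw [pow_zero, one_mul] at hk
      exact ⟨0, lam, hlam, by rw [hk]; exact hC₀, by rw [pow_zero, one_mul]⟩
    | succ k ih =>
      intro lam hlam hk
      have hk' : lam = ((ℓ : ℕ) : LaurentSeries (Zl ℓ)) *
          (((ℓ : ℕ) : LaurentSeries (Zl ℓ)) ^ k * C₀) := by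
        rw [hk, pow_succ']
        ring
      have hred : redZ ℓ lam = 0 := (redZ_eq_zero_iff ℓ lam).mpr ⟨_, hk'⟩
      obtain ⟨lam', hlam', hlam'eq⟩ := h.red_eq_zero lam hlam hred
      have hcancel : lam' = ((ℓ : ℕ) : LaurentSeries (Zl ℓ)) ^ k * C₀ :=
        mul_left_cancel₀ (LamAux.natCast_ell_ne_zero ℓ) (hlam'eq.symm.trans hk')
      obtain ⟨k', lam₀, hlam₀, hlam₀red, hlam₀eq⟩ := ih lam' hlam' hcancel
      refine ⟨k' + 1, lam₀, hlam₀, hlam₀red, ?_⟩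
      rw [hlam'eq, hlam₀eq, pow_succ']
      ring
  exact key k lam hlam hk

/-- `Λ` is integral over `ℤ_(ℓ)[j]` (inside `ℤ_(ℓ)((q))`). -/
theorem Pkg.isIntegral_lam (h : Pkg N ℓ n u Ψ) (lam : LaurentSeries (Zl ℓ))
    (hlam : lam ∈ lamRing ℓ u) : IsIntegral (evalJZ ℓ).range lam := by
  -- `u` is integral over `ℤ_(ℓ)[j]`, being a root of the monic polynomial `Ψ(j, X)`
  have hu : IsIntegral (evalJZ ℓ).range (uZ ℓ u) := by
    refine ⟨Ψ.map (evalJZ ℓ).rangeRestrict, h.monic.map _, ?_⟩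
    rw [Polynomial.eval₂_map]
    have h1 : (algebraMap (evalJZ ℓ).range (LaurentSeries (Zl ℓ))).comp
        (evalJZ ℓ).rangeRestrict = evalJZ ℓ := RingHom.ext fun _ => rfl
    rw [h1]
    exact h.root_Z
  obtain ⟨c, rfl⟩ := mem_lamRing_iff.mp hlam
  rw [ev2_eq_sum, Polynomial.sum_def]
  refine IsIntegral.sum _ (fun k _ => ?_)
  refine IsIntegral.mul ?_ (IsIntegral.pow hu k)
  exact isIntegral_algebraMap
    (x := (⟨evalJZ ℓ (c.coeff k), ⟨_, rfl⟩⟩ : (evalJZ ℓ).range))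

/-- `emb(Λ)` is integral over `ℤ_(ℓ)[j]` (inside `ℚ((q))`). -/
theorem Pkg.isIntegral_embZ_lam (h : Pkg N ℓ n u Ψ) (lam : LaurentSeries (Zl ℓ))
    (hlam : lam ∈ lamRing ℓ u) : IsIntegral (thetaJ ℓ).range (embZ ℓ lam) := by
  have hmem : ∀ x : (evalJZ ℓ).range,
      ((embZ ℓ).comp (evalJZ ℓ).range.subtype) x ∈ (thetaJ ℓ).range := by
    rintro ⟨x, b, rfl⟩
    exact ⟨b, thetaJ_eq_embZ ℓ b⟩
  exact IsIntegral.map_of_comp_eq
    (RingHom.codRestrict ((embZ ℓ).comp (evalJZ ℓ).range.subtype) (thetaJ ℓ).range hmem)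
    (embZ ℓ) (RingHom.ext fun _ => rfl) (h.isIntegral_lam lam hlam)

end Fermat.Agent.S28.CAlt
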