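import Fermat.Agent.S28.ChartsAlt.InE

/-!
# S28 Part C (CAlt): elements of the function field lying in `bigO ℓ` are `emb(λ)/b(j)` with
`λ ∈ Λ` and `b(j)` PRIMITIVE.  INTERFACE (statement frozen).

From `Pkg.inE_of_mem_full`: `x·b(j) = emb(λ)`; write `b = ℓ^{k₁} b₀` (`exists_prim_poly`),
`λ = ℓ^{k₂} λ₀` (`Pkg.exists_prim_lam`).  If `k₂ ≥ k₁` done; otherwise
`ℓ^{k₁-k₂}·(x·b₀(j)) = emb(λ₀)` with `x·b₀(j) ∈ bigO`, contradicting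
`redZ_eq_zero_of_pow_mul` (`RhoBig.lean`).
-/

set_option autoImplicit false

noncomputable section

namespace Fermat.Agent.S28.CAlt

open ModularCurve ModularCurve.IgusaScheme

variable {N : ℕ} [NeZero N] {ℓ : ℕ} [Fact ℓ.Prime] {n : ℕ} {u : LaurentSeries ℤ}
  {Ψ : Polynomial (Polynomial (Zl ℓ))}

namespace NormalFormAux

/-- `thetaJ (C (ℓ^k)) = ℓ^k` in `ℚ((q))`. -/
theorem thetaJ_C_ell_pow (ℓ : ℕ) (k : ℕ) :
    thetaJ ℓ (Polynomial.C (((ℓ : ℕ) : Zl ℓ) ^ k)) = ((ℓ : ℕ) : LaurentSeries ℚ) ^ k := by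
  have h1 : (Polynomial.C (((ℓ : ℕ) : Zl ℓ) ^ k) : Polynomial (Zl ℓ)) =
      ((ℓ : ℕ) : Polynomial (Zl ℓ)) ^ k := by
    rw [map_pow, Polynomial.C_eq_natCast]
  rw [h1, map_pow, map_natCast]

/-- `embZ (ℓ^k * lam) = ℓ^k * embZ lam`. -/
theorem embZ_ell_pow_mul (ℓ : ℕ) (k : ℕ) (lam : LaurentSeries (Zl ℓ)) :
    embZ ℓ (((ℓ : ℕ) : LaurentSeries (Zl ℓ)) ^ k * lam) =
      ((ℓ : ℕ) : LaurentSeries ℚ) ^ k * embZ ℓ lam := by
  rw [map_mul, map_pow, map_natCast]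

end NormalFormAux

theorem Pkg.isO_form (h : Pkg N ℓ n u Ψ) {x : LaurentSeries ℚ}
    (hx : x ∈ modularFunctionFieldFull N) (hO : IsBigO ℓ x) :
    ∃ lam ∈ lamRing ℓ u, ∃ b : Polynomial (Zl ℓ), redZ ℓ (evalJZ ℓ b) ≠ 0 ∧
      x * thetaJ ℓ b = embZ ℓ lam := by
  by_cases hx0 : x = 0
  · refine ⟨0, Subring.zero_mem _, 1, ?_, ?_⟩
    · rw [map_one, map_one]
      exact one_ne_zero
    · rw [hx0, zero_mul, map_zero]
  obtain ⟨lam, hlam, b, hb, hxb⟩ := h.inE_of_mem_full hx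
  have hℓ : ((ℓ : ℕ) : LaurentSeries ℚ) ≠ 0 := natCast_ell_LQ_ne_zero ℓ
  have hθb : thetaJ ℓ b ≠ 0 := by
    intro h0
    exact hb (thetaJ_injective ℓ (by rw [h0, map_zero]))
  have hlam0 : lam ≠ 0 := by
    intro h0
    rw [h0, map_zero] at hxb
    rcases mul_eq_zero.mp hxb with h1 | h1
    · exact hx0 h1
    · exact hθb h1
  obtain ⟨k₁, b₀, hb₀, hbk⟩ := exists_prim_poly ℓ b hb
  obtain ⟨k₂, lam₀, hlam₀, hlam₀r, hlamk⟩ := h.exists_prim_lam lam hlam hlam0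
  have key : ((ℓ : ℕ) : LaurentSeries ℚ) ^ k₁ * (x * thetaJ ℓ b₀) =
      ((ℓ : ℕ) : LaurentSeries ℚ) ^ k₂ * embZ ℓ lam₀ := by
    rw [← NormalFormAux.embZ_ell_pow_mul, ← hlamk, ← hxb, hbk, map_mul,
      NormalFormAux.thetaJ_C_ell_pow]
    ring
  rcases le_or_gt k₁ k₂ with hk | hk
  · obtain ⟨d, rfl⟩ := Nat.exists_eq_add_of_le hk
    refine ⟨((ℓ : ℕ) : LaurentSeries (Zl ℓ)) ^ d * lam₀, ?_, b₀, hb₀, ?_⟩
    · exact Subring.mul_mem _ (Subring.pow_mem _ (natCast_mem _ ℓ) d) hlam₀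
    · rw [NormalFormAux.embZ_ell_pow_mul]
      rw [pow_add, mul_assoc] at key
      exact mul_left_cancel₀ (pow_ne_zero k₁ hℓ) key
  · exfalso
    obtain ⟨d, rfl⟩ := Nat.exists_eq_add_of_lt hk
    have key' : ((ℓ : ℕ) : LaurentSeries ℚ) ^ (d + 1) * (x * thetaJ ℓ b₀) = embZ ℓ lam₀ := by
      have e : k₂ + d + 1 = k₂ + (d + 1) := by ring
      rw [e, pow_add, mul_assoc] at key
      exact mul_left_cancel₀ (pow_ne_zero k₂ hℓ) key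
    exact hlam₀r (redZ_eq_zero_of_pow_mul ℓ (hO.mul (isBigO_thetaJ ℓ b₀)) (d + 1)
      (Nat.succ_pos d) lam₀ key')

end Fermat.Agent.S28.CAlt
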