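import Fermat.Agent.S28.ChartsAlt.Defs

/-!
# S28 Part C (CAlt): the maps `embZ`, `redZ`.  INTERFACE (statements frozen).
-/

set_option autoImplicit false

noncomputable section

namespace Fermat.Agent.S28.CAlt

open ModularCurve ModularCurve.IgusaScheme

variable (ℓ : ℕ) [Fact ℓ.Prime]

namespace RedAux

omit [Fact ℓ.Prime] in
/-- Coefficients of `ℓ · C'` in `ℤ_(ℓ)((q))`. -/
theorem coeff_natCast_mul (m : ℕ) (C' : LaurentSeries (Zl ℓ)) (n : ℤ) :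
    (((m : ℕ) : LaurentSeries (Zl ℓ)) * C').coeff n = ((m : ℕ) : Zl ℓ) * C'.coeff n := by
  rw [← map_natCast (HahnSeries.C : Zl ℓ →+* LaurentSeries (Zl ℓ)) m, HahnSeries.C_apply,
    HahnSeries.coeff_single_zero_mul]

/-- `ℓ ≠ 0` in `ℤ_(ℓ)`. -/
theorem natCast_ell_zl_ne_zero : ((ℓ : ℕ) : Zl ℓ) ≠ 0 := (zl_prime ℓ).ne_zero

/-- Inductive form of `exists_pow_mul_prim`: induction on the `ℓ`-adic valuation of one nonzero
coefficient. -/
theorem exists_pow_mul_prim_aux (redZ_zero : ∀ C : LaurentSeries (Zl ℓ), redZ ℓ C = 0 →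
      ∃ C' : LaurentSeries (Zl ℓ), C = ((ℓ : ℕ) : LaurentSeries (Zl ℓ)) * C') :
    ∀ (k₀ : ℕ) (C : LaurentSeries (Zl ℓ)) (n₀ : ℤ) (v : (Zl ℓ)ˣ),
      C.coeff n₀ = ((ℓ : ℕ) : Zl ℓ) ^ k₀ * v →
      ∃ (k : ℕ) (C₀ : LaurentSeries (Zl ℓ)), redZ ℓ C₀ ≠ 0 ∧
        C = ((ℓ : ℕ) : LaurentSeries (Zl ℓ)) ^ k * C₀ := by
  intro k₀
  induction k₀ with
  | zero =>
    intro C n₀ v hv
    refine ⟨0, C, ?_, by rw [pow_zero, one_mul]⟩
    intro h0
    have h1 : zlRes ℓ (C.coeff n₀) = 0 := by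
      have := congrArg (fun z : LaurentSeries (ZMod ℓ) => z.coeff n₀) h0
      simpa [redZ, coeffMap_coeff] using this
    rw [hv, pow_zero, one_mul] at h1
    have h2 : IsUnit (zlRes ℓ (v : Zl ℓ)) := v.isUnit.map (zlRes ℓ)
    rw [h1] at h2
    exact not_isUnit_zero h2
  | succ k₁ ih =>
    intro C n₀ v hv
    by_cases h0 : redZ ℓ C = 0
    · obtain ⟨C', rfl⟩ := redZ_zero C h0
      rw [coeff_natCast_mul, pow_succ', mul_assoc] at hv
      have hv' : C'.coeff n₀ = ((ℓ : ℕ) : Zl ℓ) ^ k₁ * v :=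
        mul_left_cancel₀ (natCast_ell_zl_ne_zero ℓ) hv
      obtain ⟨k, C₀, hC₀, rfl⟩ := ih C' n₀ v hv'
      exact ⟨k + 1, C₀, hC₀, by rw [pow_succ', mul_assoc]⟩
    · exact ⟨0, C, h0, by rw [pow_zero, one_mul]⟩

end RedAux

omit [Fact ℓ.Prime] in
theorem embZ_injective : Function.Injective (embZ ℓ) := by
  intro x y h
  refine HahnSeries.ext (funext fun n => Subtype.ext ?_)
  exact congrArg (fun z : LaurentSeries ℚ => z.coeff n) h

omit [Fact ℓ.Prime] in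
theorem embZ_coeff (C : LaurentSeries (Zl ℓ)) (n : ℤ) :
    (embZ ℓ C).coeff n = ((C.coeff n : Zl ℓ) : ℚ) := by
  rfl

theorem redZ_coeff (C : LaurentSeries (Zl ℓ)) (n : ℤ) :
    (redZ ℓ C).coeff n = zlRes ℓ (C.coeff n) := by
  rfl

omit [Fact ℓ.Prime] in
theorem embZ_C (a : Zl ℓ) : embZ ℓ (HahnSeries.C a) = HahnSeries.C (a : ℚ) := by
  rw [HahnSeries.C_apply, HahnSeries.C_apply]
  exact coeffMap_single _ _ _

theorem redZ_C (a : Zl ℓ) : redZ ℓ (HahnSeries.C a) = HahnSeries.C (zlRes ℓ a) := by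
  rw [HahnSeries.C_apply, HahnSeries.C_apply]
  exact coeffMap_single _ _ _

omit [Fact ℓ.Prime] in
theorem embZ_jZ : embZ ℓ (jZ ℓ) = jqModC ℚ := by
  exact coeffMap_jqModC _

theorem redZ_jZ : redZ ℓ (jZ ℓ) = jqModC (ZMod ℓ) := by
  exact coeffMap_jqModC _

/-- `ℓ = 0` in `𝔽_ℓ((q))`. -/
theorem natCast_ell_LF : ((ℓ : ℕ) : LaurentSeries (ZMod ℓ)) = 0 := by
  rw [← map_natCast (HahnSeries.C : ZMod ℓ →+* LaurentSeries (ZMod ℓ)) ℓ, ZMod.natCast_self,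
    map_zero]

/-- `ℓ ≠ 0` in `ℚ((q))`. -/
theorem natCast_ell_LQ_ne_zero : ((ℓ : ℕ) : LaurentSeries ℚ) ≠ 0 := by
  have hp : ℓ.Prime := Fact.out
  rw [← map_natCast (HahnSeries.C : ℚ →+* LaurentSeries ℚ) ℓ]
  intro h
  have h2 : ((ℓ : ℕ) : ℚ) = 0 := HahnSeries.C_injective (by rw [h, map_zero])
  exact hp.ne_zero (by exact_mod_cast h2)

/-- The kernel of `redZ` is `ℓ·ℤ_(ℓ)((q))`. -/
theorem redZ_eq_zero_iff (C : LaurentSeries (Zl ℓ)) :
    redZ ℓ C = 0 ↔ ∃ C' : LaurentSeries (Zl ℓ), C = ((ℓ : ℕ) : LaurentSeries (Zl ℓ)) * C' := by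
  constructor
  · intro h
    have hcoeff : ∀ n : ℤ, ∃ y : Zl ℓ, C.coeff n = ((ℓ : ℕ) : Zl ℓ) * y := by
      intro n
      apply (zlRes_eq_zero_iff ℓ (C.coeff n)).1
      have := congrArg (fun z : LaurentSeries (ZMod ℓ) => z.coeff n) h
      simpa [redZ, coeffMap_coeff] using this
    choose f hf using hcoeff
    have hsupp : Function.support f ⊆ C.support := by
      intro n hn
      rw [Function.mem_support] at hn
      rw [HahnSeries.mem_support, hf n]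
      exact mul_ne_zero (RedAux.natCast_ell_zl_ne_zero ℓ) hn
    refine ⟨⟨f, C.isPWO_support.mono hsupp⟩, HahnSeries.ext (funext fun n => ?_)⟩
    rw [RedAux.coeff_natCast_mul]
    exact hf n
  · rintro ⟨C', rfl⟩
    rw [map_mul, map_natCast, natCast_ell_LF, zero_mul]

/-- Every nonzero series is `ℓ^k` times a primitive one. -/
theorem exists_pow_mul_prim (C : LaurentSeries (Zl ℓ)) (hC : C ≠ 0) :
    ∃ (k : ℕ) (C₀ : LaurentSeries (Zl ℓ)), redZ ℓ C₀ ≠ 0 ∧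
      C = ((ℓ : ℕ) : LaurentSeries (Zl ℓ)) ^ k * C₀ := by
  have hex : ∃ n₀ : ℤ, C.coeff n₀ ≠ 0 := by
    by_contra hcon
    rw [not_exists] at hcon
    apply hC
    refine HahnSeries.ext (funext fun n => ?_)
    have := hcon n
    rw [not_not] at this
    rw [this]
    rfl
  obtain ⟨n₀, hn₀⟩ := hex
  obtain ⟨k₀, v, hv⟩ := zl_eq_pow_mul_unit ℓ (C.coeff n₀) hn₀
  exact RedAux.exists_pow_mul_prim_aux ℓ (fun C h => (redZ_eq_zero_iff ℓ C).1 h) k₀ C n₀ v hv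

end Fermat.Agent.S28.CAlt
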