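import Fermat.Agent.S28.ChartsAlt.BigO

/-!
# S28 Part C (CAlt): the residue map `rhoBig ℓ : bigO ℓ →+* 𝔽_ℓ((q))`,
`emb(C)/emb(B) ↦ red(C)/red(B)`.  INTERFACE (definitions complete, statements frozen).
-/

set_option autoImplicit false

noncomputable section

namespace Fermat.Agent.S28.CAlt

open ModularCurve ModularCurve.IgusaScheme

variable (ℓ : ℕ) [Fact ℓ.Prime]

namespace RhoBigAux

/-- Two representations of the same element as a quotient have the same reduction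
(cross-multiplied form). -/
theorem redZ_cross (x : LaurentSeries ℚ) (C B C' B' : LaurentSeries (Zl ℓ))
    (h : x * embZ ℓ B = embZ ℓ C) (h' : x * embZ ℓ B' = embZ ℓ C') :
    redZ ℓ C * redZ ℓ B' = redZ ℓ C' * redZ ℓ B := by
  have h1 : embZ ℓ (C * B') = embZ ℓ (C' * B) := by
    rw [map_mul, map_mul, ← h, ← h']
    ring
  have h2 : C * B' = C' * B := embZ_injective ℓ h1
  have h3 := congrArg (redZ ℓ) h2
  rwa [map_mul, map_mul] at h3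

/-- The residue map as a function: `emb(C)/emb(B) ↦ red(C) * red(B)⁻¹` for a chosen
representation. -/
def rhoFun (x : ↥(bigO ℓ)) : LaurentSeries (ZMod ℓ) :=
  redZ ℓ (mem_bigO_iff.mp x.2).choose * (redZ ℓ (mem_bigO_iff.mp x.2).choose_spec.choose)⁻¹

/-- The value of `rhoFun` can be computed from any representation. -/
theorem rhoFun_spec (x : ↥(bigO ℓ)) (C B : LaurentSeries (Zl ℓ))
    (h : (x : LaurentSeries ℚ) * embZ ℓ B = embZ ℓ C) : rhoFun ℓ x * redZ ℓ B = redZ ℓ C := by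
  obtain ⟨hB₀, h₀⟩ := (mem_bigO_iff.mp x.2).choose_spec.choose_spec
  have hc := redZ_cross ℓ (x : LaurentSeries ℚ) _ _ C B h₀ h
  unfold rhoFun
  rw [mul_right_comm, hc, mul_assoc, mul_inv_cancel₀ hB₀, mul_one]

theorem redZ_one_ne_zero : redZ ℓ (1 : LaurentSeries (Zl ℓ)) ≠ 0 := by
  rw [map_one]
  exact one_ne_zero

end RhoBigAux

/-- Existence of the residue map (well defined: cross-multiply in `ℤ_(ℓ)((q))`, `embZ` is
injective, `𝔽_ℓ((q))` is a field).  Either by hand (choose `C, B`, put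
`ρ x = red C * (red B)⁻¹`) or via `Localization`/`IsLocalization.lift`. -/
theorem exists_rhoBig : ∃ ρ : ↥(bigO ℓ) →+* LaurentSeries (ZMod ℓ),
    ∀ (x : ↥(bigO ℓ)) (C B : LaurentSeries (Zl ℓ)), redZ ℓ B ≠ 0 →
      (x : LaurentSeries ℚ) * embZ ℓ B = embZ ℓ C → ρ x * redZ ℓ B = redZ ℓ C := by
  refine ⟨{ toFun := RhoBigAux.rhoFun ℓ, map_one' := ?_, map_mul' := ?_, map_zero' := ?_,
            map_add' := ?_ }, fun x C B _ h => RhoBigAux.rhoFun_spec ℓ x C B h⟩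
  · have h := RhoBigAux.rhoFun_spec ℓ 1 1 1 (by
      rw [map_one, mul_one]
      rfl)
    rwa [map_one, mul_one] at h
  · intro x y
    obtain ⟨Cx, Bx, hBx, hx⟩ := mem_bigO_iff.mp x.2
    obtain ⟨Cy, By, hBy, hy⟩ := mem_bigO_iff.mp y.2
    have hBxy : redZ ℓ (Bx * By) ≠ 0 := by
      rw [map_mul]
      exact mul_ne_zero hBx hBy
    have hxy : ((x * y : ↥(bigO ℓ)) : LaurentSeries ℚ) * embZ ℓ (Bx * By) =
        embZ ℓ (Cx * Cy) := by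
      rw [map_mul, map_mul, ← hx, ← hy]
      show (x : LaurentSeries ℚ) * (y : LaurentSeries ℚ) * (embZ ℓ Bx * embZ ℓ By) = _
      ring
    have h1 := RhoBigAux.rhoFun_spec ℓ (x * y) _ _ hxy
    have h2 := RhoBigAux.rhoFun_spec ℓ x _ _ hx
    have h3 := RhoBigAux.rhoFun_spec ℓ y _ _ hy
    apply mul_right_cancel₀ hBxy
    rw [h1, map_mul, map_mul, ← h2, ← h3]
    ring
  · have h := RhoBigAux.rhoFun_spec ℓ 0 0 1 (by
      rw [map_one, mul_one, map_zero]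
      rfl)
    rwa [map_one, mul_one, map_zero] at h
  · intro x y
    obtain ⟨Cx, Bx, hBx, hx⟩ := mem_bigO_iff.mp x.2
    obtain ⟨Cy, By, hBy, hy⟩ := mem_bigO_iff.mp y.2
    have hBxy : redZ ℓ (Bx * By) ≠ 0 := by
      rw [map_mul]
      exact mul_ne_zero hBx hBy
    have hxy : ((x + y : ↥(bigO ℓ)) : LaurentSeries ℚ) * embZ ℓ (Bx * By) =
        embZ ℓ (Cx * By + Cy * Bx) := by
      rw [map_add, map_mul, map_mul, map_mul, ← hx, ← hy]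
      show ((x : LaurentSeries ℚ) + (y : LaurentSeries ℚ)) * (embZ ℓ Bx * embZ ℓ By) = _
      ring
    have h1 := RhoBigAux.rhoFun_spec ℓ (x + y) _ _ hxy
    have h2 := RhoBigAux.rhoFun_spec ℓ x _ _ hx
    have h3 := RhoBigAux.rhoFun_spec ℓ y _ _ hy
    apply mul_right_cancel₀ hBxy
    rw [h1, map_add, map_mul, map_mul, map_mul, ← h2, ← h3]
    ring

/-- The residue map of `bigO ℓ`. -/
def rhoBig : ↥(bigO ℓ) →+* LaurentSeries (ZMod ℓ) := (exists_rhoBig ℓ).choose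

theorem rhoBig_spec (x : ↥(bigO ℓ)) (C B : LaurentSeries (Zl ℓ)) (hB : redZ ℓ B ≠ 0)
    (h : (x : LaurentSeries ℚ) * embZ ℓ B = embZ ℓ C) : rhoBig ℓ x * redZ ℓ B = redZ ℓ C :=
  (exists_rhoBig ℓ).choose_spec x C B hB h

theorem rhoBig_embZ (C : LaurentSeries (Zl ℓ)) :
    rhoBig ℓ ⟨embZ ℓ C, isBigO_embZ ℓ C⟩ = redZ ℓ C := by
  have h := rhoBig_spec ℓ ⟨embZ ℓ C, isBigO_embZ ℓ C⟩ C 1 (RhoBigAux.redZ_one_ne_zero ℓ) (by
    rw [map_one, mul_one])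
  rwa [map_one, mul_one] at h

theorem rhoBig_inv_embZ (B : LaurentSeries (Zl ℓ)) (hB : redZ ℓ B ≠ 0) :
    rhoBig ℓ ⟨(embZ ℓ B)⁻¹, isBigO_inv_embZ ℓ B hB⟩ = (redZ ℓ B)⁻¹ := by
  have hB0 : embZ ℓ B ≠ 0 := by
    intro h0
    apply hB
    have hB' : B = 0 := embZ_injective ℓ (by rw [h0, map_zero])
    rw [hB', map_zero]
  have h := rhoBig_spec ℓ ⟨(embZ ℓ B)⁻¹, isBigO_inv_embZ ℓ B hB⟩ 1 B hB (by
    show (embZ ℓ B)⁻¹ * embZ ℓ B = embZ ℓ 1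
    rw [inv_mul_cancel₀ hB0, map_one])
  rw [map_one] at h
  exact eq_inv_of_mul_eq_one_left h

theorem rhoBig_constQ (a : Zl ℓ) : rhoBig ℓ ⟨constQ ℓ a, isBigO_constQ ℓ a⟩ = constF ℓ a := by
  have h := rhoBig_spec ℓ ⟨constQ ℓ a, isBigO_constQ ℓ a⟩ (HahnSeries.C a) 1
    (RhoBigAux.redZ_one_ne_zero ℓ) (by
      show constQ ℓ a * embZ ℓ 1 = embZ ℓ (HahnSeries.C a)
      rw [map_one, mul_one, embZ_C]
      rfl)
  rw [map_one, mul_one, redZ_C] at h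
  exact h

/-- `ρ(ℓ) = 0`. -/
theorem rhoBig_natCast_ell : rhoBig ℓ ((ℓ : ℕ) : ↥(bigO ℓ)) = 0 := by
  rw [map_natCast]
  exact natCast_ell_LF ℓ

/-- The kernel of the residue map is `ℓ·bigO`. -/
theorem rhoBig_eq_zero (x : ↥(bigO ℓ)) (hx : rhoBig ℓ x = 0) :
    ∃ y : ↥(bigO ℓ), (x : LaurentSeries ℚ) = ((ℓ : ℕ) : LaurentSeries ℚ) * (y : LaurentSeries ℚ) := by
  obtain ⟨C, B, hB, h⟩ := mem_bigO_iff.mp x.2
  have h1 := rhoBig_spec ℓ x C B hB h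
  rw [hx, zero_mul] at h1
  obtain ⟨C', hC'⟩ := (redZ_eq_zero_iff ℓ C).mp h1.symm
  have hl := natCast_ell_LQ_ne_zero ℓ
  have h2 : (x : LaurentSeries ℚ) * embZ ℓ B = ((ℓ : ℕ) : LaurentSeries ℚ) * embZ ℓ C' := by
    rw [h, hC', map_mul, map_natCast]
  have hy : IsBigO ℓ ((x : LaurentSeries ℚ) * (((ℓ : ℕ) : LaurentSeries ℚ))⁻¹) := by
    refine ⟨C', B, hB, ?_⟩
    calc (x : LaurentSeries ℚ) * (((ℓ : ℕ) : LaurentSeries ℚ))⁻¹ * embZ ℓ B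
        = (((ℓ : ℕ) : LaurentSeries ℚ))⁻¹ * ((x : LaurentSeries ℚ) * embZ ℓ B) := by ring
      _ = (((ℓ : ℕ) : LaurentSeries ℚ))⁻¹ * (((ℓ : ℕ) : LaurentSeries ℚ) * embZ ℓ C') := by
          rw [h2]
      _ = embZ ℓ C' := by rw [← mul_assoc, inv_mul_cancel₀ hl, one_mul]
  refine ⟨⟨_, hy⟩, ?_⟩
  show (x : LaurentSeries ℚ) =
    ((ℓ : ℕ) : LaurentSeries ℚ) * ((x : LaurentSeries ℚ) * (((ℓ : ℕ) : LaurentSeries ℚ))⁻¹)
  rw [mul_comm (x : LaurentSeries ℚ), ← mul_assoc, mul_inv_cancel₀ hl, one_mul]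

/-- If `ℓ^k · x = emb(C)` with `k ≥ 1`, `x ∈ bigO`, then `C` is not primitive. -/
theorem redZ_eq_zero_of_pow_mul {x : LaurentSeries ℚ} (hx : IsBigO ℓ x) (k : ℕ) (hk : 0 < k)
    (C : LaurentSeries (Zl ℓ)) (h : ((ℓ : ℕ) : LaurentSeries ℚ) ^ k * x = embZ ℓ C) :
    redZ ℓ C = 0 := by
  have heq : (⟨embZ ℓ C, isBigO_embZ ℓ C⟩ : ↥(bigO ℓ)) =
      ((ℓ : ℕ) : ↥(bigO ℓ)) ^ k * ⟨x, hx⟩ := by
    apply Subtype.ext
    show embZ ℓ C = ((((ℓ : ℕ) : ↥(bigO ℓ)) ^ k * ⟨x, hx⟩ : ↥(bigO ℓ)) : LaurentSeries ℚ)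
    rw [← h]
    push_cast
    rfl
  have h2 := congrArg (rhoBig ℓ) heq
  rw [rhoBig_embZ, map_mul, map_pow, rhoBig_natCast_ell, zero_pow hk.ne', zero_mul] at h2
  exact h2

end Fermat.Agent.S28.CAlt
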