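import Fermat.Agent.S28.ChartsAlt.RhoBig

/-!
# S28 Part C (CAlt): the rings `ℤ_(ℓ)[j]`, `ℤ_(ℓ)[j⁻¹] ⊆ bigO ℓ` and their reductions.
INTERFACE (statements frozen).

`thetaJ ℓ b = b(j)`, `thetaJinv ℓ b = b(j⁻¹)` (in `ℚ((q))`), `evalJZ ℓ b = b(j)` in
`ℤ_(ℓ)((q))`.
-/

set_option autoImplicit false

noncomputable section

namespace Fermat.Agent.S28.CAlt

open ModularCurve ModularCurve.IgusaScheme

namespace ThetaAux

/-- A polynomial expression with coefficients in a subring, evaluated at a point of the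
subring, lies in the subring. -/
theorem eval₂_mem_of_subring {R S : Type*} [CommRing R] [CommRing S] (T : Subring S)
    (f : R →+* S) (x : S) (hf : ∀ a, f a ∈ T) (hx : x ∈ T) (b : Polynomial R) :
    Polynomial.eval₂ f x b ∈ T := by
  rw [Polynomial.eval₂_eq_sum_range]
  exact T.sum_mem fun i _ => T.mul_mem (hf _) (T.pow_mem hx i)

theorem thetaJ_apply (ℓ : ℕ) (b : Polynomial (Zl ℓ)) :
    thetaJ ℓ b = Polynomial.eval₂ (constQ ℓ) (jqModC ℚ) b := rfl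

theorem thetaJinv_apply (ℓ : ℕ) (b : Polynomial (Zl ℓ)) :
    thetaJinv ℓ b = Polynomial.eval₂ (constQ ℓ) (jqModC ℚ)⁻¹ b := rfl

theorem evalJZ_apply (ℓ : ℕ) (b : Polynomial (Zl ℓ)) :
    evalJZ ℓ b = Polynomial.eval₂ (HahnSeries.C : Zl ℓ →+* LaurentSeries (Zl ℓ)) (jZ ℓ) b := rfl

theorem thetaJ_C (ℓ : ℕ) (a : Zl ℓ) : thetaJ ℓ (Polynomial.C a) = constQ ℓ a := by
  rw [thetaJ_apply, Polynomial.eval₂_C]

theorem thetaJ_X (ℓ : ℕ) : thetaJ ℓ Polynomial.X = jqModC ℚ := by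
  rw [thetaJ_apply, Polynomial.eval₂_X]

theorem thetaJinv_C (ℓ : ℕ) (a : Zl ℓ) : thetaJinv ℓ (Polynomial.C a) = constQ ℓ a := by
  rw [thetaJinv_apply, Polynomial.eval₂_C]

theorem thetaJinv_X (ℓ : ℕ) : thetaJinv ℓ Polynomial.X = (jqModC ℚ)⁻¹ := by
  rw [thetaJinv_apply, Polynomial.eval₂_X]

/-- `j̄ ≠ 0`, in the form needed for `isBigO_inv_embZ`. -/
theorem redZ_jZ_ne_zero (ℓ : ℕ) [Fact ℓ.Prime] : redZ ℓ (jZ ℓ) ≠ 0 := by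
  rw [redZ_jZ]
  exact jqModC_ne_zero_of_nontrivial (ZMod ℓ)

/-- `j⁻¹ ∈ bigO`. -/
theorem isBigO_jq_inv' (ℓ : ℕ) [Fact ℓ.Prime] : IsBigO ℓ (jqModC ℚ)⁻¹ := by
  have h := isBigO_inv_embZ ℓ (jZ ℓ) (redZ_jZ_ne_zero ℓ)
  rw [embZ_jZ] at h
  exact h

end ThetaAux

variable (ℓ : ℕ) [Fact ℓ.Prime]

omit [Fact ℓ.Prime] in
theorem thetaJ_eq_embZ (b : Polynomial (Zl ℓ)) : thetaJ ℓ b = embZ ℓ (evalJZ ℓ b) := by
  rw [ThetaAux.thetaJ_apply, ThetaAux.evalJZ_apply, Polynomial.hom_eval₂, embZ_jZ]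
  congr 1
  exact RingHom.ext fun a => (embZ_C ℓ a).symm

/-- `red(b(j)) = b̄(j̄)`. -/
theorem redZ_evalJZ (b : Polynomial (Zl ℓ)) :
    redZ ℓ (evalJZ ℓ b) = Polynomial.eval₂ (constF ℓ) (jqModC (ZMod ℓ)) b := by
  rw [ThetaAux.evalJZ_apply, Polynomial.hom_eval₂, redZ_jZ]
  congr 1
  exact RingHom.ext fun a => redZ_C ℓ a

theorem isBigO_thetaJ (b : Polynomial (Zl ℓ)) : IsBigO ℓ (thetaJ ℓ b) := by
  rw [thetaJ_eq_embZ]
  exact isBigO_embZ ℓ _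

theorem isBigO_thetaJinv (b : Polynomial (Zl ℓ)) : IsBigO ℓ (thetaJinv ℓ b) := by
  rw [ThetaAux.thetaJinv_apply]
  exact ThetaAux.eval₂_mem_of_subring (bigO ℓ) (constQ ℓ) (jqModC ℚ)⁻¹
    (fun a => isBigO_constQ ℓ a) (ThetaAux.isBigO_jq_inv' ℓ) b

theorem rhoBig_thetaJ (b : Polynomial (Zl ℓ)) :
    rhoBig ℓ ⟨thetaJ ℓ b, isBigO_thetaJ ℓ b⟩ =
      Polynomial.eval₂ (constF ℓ) (jqModC (ZMod ℓ)) b := by
  have h : (⟨thetaJ ℓ b, isBigO_thetaJ ℓ b⟩ : ↥(bigO ℓ)) =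
      ⟨embZ ℓ (evalJZ ℓ b), isBigO_embZ ℓ _⟩ := Subtype.ext (thetaJ_eq_embZ ℓ b)
  rw [h, rhoBig_embZ, redZ_evalJZ]

theorem rhoBig_thetaJinv (b : Polynomial (Zl ℓ)) :
    rhoBig ℓ ⟨thetaJinv ℓ b, isBigO_thetaJinv ℓ b⟩ =
      Polynomial.eval₂ (constF ℓ) (jqModC (ZMod ℓ))⁻¹ b := by
  have key : (rhoBig ℓ).comp ((thetaJinv ℓ).codRestrict (bigO ℓ) (isBigO_thetaJinv ℓ)) =
      Polynomial.eval₂RingHom (constF ℓ) (jqModC (ZMod ℓ))⁻¹ := by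
    apply Polynomial.ringHom_ext
    · intro a
      have h : ((thetaJinv ℓ).codRestrict (bigO ℓ) (isBigO_thetaJinv ℓ)) (Polynomial.C a) =
          ⟨constQ ℓ a, isBigO_constQ ℓ a⟩ := Subtype.ext (ThetaAux.thetaJinv_C ℓ a)
      rw [RingHom.comp_apply, h, rhoBig_constQ, Polynomial.coe_eval₂RingHom,
        Polynomial.eval₂_C]
    · have h : ((thetaJinv ℓ).codRestrict (bigO ℓ) (isBigO_thetaJinv ℓ)) Polynomial.X =
          ⟨(embZ ℓ (jZ ℓ))⁻¹, isBigO_inv_embZ ℓ (jZ ℓ) (ThetaAux.redZ_jZ_ne_zero ℓ)⟩ := by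
        apply Subtype.ext
        show thetaJinv ℓ Polynomial.X = (embZ ℓ (jZ ℓ))⁻¹
        rw [ThetaAux.thetaJinv_X, embZ_jZ]
      rw [RingHom.comp_apply, h, rhoBig_inv_embZ ℓ (jZ ℓ) (ThetaAux.redZ_jZ_ne_zero ℓ), redZ_jZ,
        Polynomial.coe_eval₂RingHom, Polynomial.eval₂_X]
  have h := RingHom.congr_fun key b
  exact h

omit [Fact ℓ.Prime] in
theorem natCast_mem_thetaJ_range (m : ℕ) :
    ((m : ℕ) : LaurentSeries ℚ) ∈ (thetaJ ℓ).range :=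
  ⟨(m : Polynomial (Zl ℓ)), map_natCast (thetaJ ℓ) m⟩

omit [Fact ℓ.Prime] in
theorem natCast_mem_thetaJinv_range (m : ℕ) :
    ((m : ℕ) : LaurentSeries ℚ) ∈ (thetaJinv ℓ).range :=
  ⟨(m : Polynomial (Zl ℓ)), map_natCast (thetaJinv ℓ) m⟩

omit [Fact ℓ.Prime] in
theorem thetaJ_range_le_fieldJ : (thetaJ ℓ).range ≤ (fieldJ ℓ).toSubring := by
  rintro x ⟨b, rfl⟩
  exact Subfield.subset_closure ⟨b, rfl⟩

omit [Fact ℓ.Prime] in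
theorem thetaJinv_range_le_fieldJ : (thetaJinv ℓ).range ≤ (fieldJ ℓ).toSubring := by
  rintro x ⟨b, rfl⟩
  have hC : ∀ a : Zl ℓ, constQ ℓ a ∈ (fieldJ ℓ).toSubring := fun a =>
    thetaJ_range_le_fieldJ ℓ ⟨Polynomial.C a, ThetaAux.thetaJ_C ℓ a⟩
  have hj : jqModC ℚ ∈ fieldJ ℓ :=
    thetaJ_range_le_fieldJ ℓ ⟨Polynomial.X, ThetaAux.thetaJ_X ℓ⟩
  have hjinv : (jqModC ℚ)⁻¹ ∈ (fieldJ ℓ).toSubring := (fieldJ ℓ).inv_mem hj
  rw [ThetaAux.thetaJinv_apply]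
  exact ThetaAux.eval₂_mem_of_subring (fieldJ ℓ).toSubring (constQ ℓ) (jqModC ℚ)⁻¹ hC hjinv b

omit [Fact ℓ.Prime] in
/-- `ℚ(j)` is also the field generated by `ℤ_(ℓ)[j⁻¹]`. -/
theorem closure_range_thetaJinv :
    Subfield.closure (Set.range (thetaJinv ℓ)) = fieldJ ℓ := by
  apply le_antisymm
  · rw [Subfield.closure_le]
    rintro x ⟨b, rfl⟩
    exact thetaJinv_range_le_fieldJ ℓ ⟨b, rfl⟩
  · unfold fieldJ
    rw [Subfield.closure_le]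
    rintro x ⟨b, rfl⟩
    have hC : ∀ a : Zl ℓ,
        constQ ℓ a ∈ (Subfield.closure (Set.range (thetaJinv ℓ))).toSubring := fun a =>
      Subfield.subset_closure ⟨Polynomial.C a, ThetaAux.thetaJinv_C ℓ a⟩
    have hjinv : (jqModC ℚ)⁻¹ ∈ Subfield.closure (Set.range (thetaJinv ℓ)) :=
      Subfield.subset_closure ⟨Polynomial.X, ThetaAux.thetaJinv_X ℓ⟩
    have hj : jqModC ℚ ∈ (Subfield.closure (Set.range (thetaJinv ℓ))).toSubring := by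
      have h := (Subfield.closure (Set.range (thetaJinv ℓ))).inv_mem hjinv
      rw [inv_inv] at h
      exact h
    show thetaJ ℓ b ∈ (Subfield.closure (Set.range (thetaJinv ℓ))).toSubring
    rw [ThetaAux.thetaJ_apply]
    exact ThetaAux.eval₂_mem_of_subring _ (constQ ℓ) (jqModC ℚ) hC hj b

end Fermat.Agent.S28.CAlt
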