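import Fermat.Agent.S28.ChartsAlt.Theta

/-!
# S28 Part C (CAlt): transcendence of `j̄`, `j̄⁻¹` over `𝔽_ℓ` and of `j` over `ℤ_(ℓ)`;
divisibility by `ℓ` in `ℤ_(ℓ)[j^{±1}]`.  INTERFACE (statements frozen).

Leading terms: `Fermat.Agent.S28.leadsWith_eval_jT` (`Ana/LeadPoly.lean`, with `N = 1` and
`qExpand_one_apply`), `LeadsWith.ne_zero` (`Ana/Lead.lean`); for `j⁻¹`:
`Polynomial.eval₂_reverse_mul_pow`.
-/

set_option autoImplicit false

noncomputable section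

namespace Fermat.Agent.S28.CAlt

open ModularCurve ModularCurve.IgusaScheme

namespace ThetaTrAux

/-- `j` is transcendental over the constants (leading term argument). -/
theorem eval₂_jqModC_ne_zero (R : Type*) [CommRing R] (b : Polynomial R) (hb : b ≠ 0) :
    Polynomial.eval₂ (HahnSeries.C : R →+* LaurentSeries R) (jqModC R) b ≠ 0 := by
  have h := leadsWith_eval_jT R 1 b
  rw [qExpand_one_apply] at h
  exact h.ne_zero (Polynomial.leadingCoeff_ne_zero.mpr hb)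

/-- `j⁻¹` is transcendental over a field of constants. -/
theorem eval₂_jqModC_inv_ne_zero (K : Type*) [Field K] (b : Polynomial K) (hb : b ≠ 0) :
    Polynomial.eval₂ (HahnSeries.C : K →+* LaurentSeries K) (jqModC K)⁻¹ b ≠ 0 := by
  have hx : jqModC K ≠ 0 := jqModC_ne_zero_of_nontrivial K
  have : Invertible (jqModC K) := invertibleOfNonzero hx
  have hdeg : (Polynomial.reflect b.natDegree b).natDegree ≤ b.natDegree := by
    have h := Polynomial.natDegree_reflect_le (N := b.natDegree) (p := b)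
    rwa [max_self] at h
  have hr : Polynomial.reflect b.natDegree b ≠ 0 := by
    rw [Ne, Polynomial.reflect_eq_zero_iff]
    exact hb
  have h0 := eval₂_jqModC_ne_zero K _ hr
  intro h
  apply h0
  have key := Polynomial.eval₂_reflect_eq_zero_iff (HahnSeries.C : K →+* LaurentSeries K)
    (jqModC K) b.natDegree (Polynomial.reflect b.natDegree b) hdeg
  rw [Polynomial.reflect_reflect, invOf_eq_inv] at key
  exact key.mp h

end ThetaTrAux

variable (ℓ : ℕ) [Fact ℓ.Prime]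

/-- `j̄` is transcendental over `𝔽_ℓ`. -/
theorem evalBar_ne_zero (b : Polynomial (ZMod ℓ)) (hb : b ≠ 0) :
    Polynomial.eval₂ (HahnSeries.C : ZMod ℓ →+* LaurentSeries (ZMod ℓ)) (jqModC (ZMod ℓ)) b ≠ 0 :=
  ThetaTrAux.eval₂_jqModC_ne_zero (ZMod ℓ) b hb

/-- `j̄⁻¹` is transcendental over `𝔽_ℓ`. -/
theorem evalBarInv_ne_zero (b : Polynomial (ZMod ℓ)) (hb : b ≠ 0) :
    Polynomial.eval₂ (HahnSeries.C : ZMod ℓ →+* LaurentSeries (ZMod ℓ)) (jqModC (ZMod ℓ))⁻¹ b ≠ 0 :=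
  ThetaTrAux.eval₂_jqModC_inv_ne_zero (ZMod ℓ) b hb

/-- A polynomial over `ℤ_(ℓ)` all of whose coefficients reduce to `0` is divisible by `ℓ`. -/
theorem exists_eq_C_mul_of_map_eq_zero (b : Polynomial (Zl ℓ))
    (hb : b.map (zlRes ℓ) = 0) : ∃ b' : Polynomial (Zl ℓ), b = Polynomial.C ((ℓ : ℕ) : Zl ℓ) * b' := by
  have h : Polynomial.C ((ℓ : ℕ) : Zl ℓ) ∣ b := by
    rw [Polynomial.C_dvd_iff_dvd_coeff]
    intro i
    have hi : zlRes ℓ (b.coeff i) = 0 := by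
      rw [← Polynomial.coeff_map, hb, Polynomial.coeff_zero]
    obtain ⟨y, hy⟩ := (zlRes_eq_zero_iff ℓ (b.coeff i)).mp hi
    exact ⟨y, hy⟩
  exact h

theorem exists_eq_C_mul_of_evalBar (b : Polynomial (Zl ℓ))
    (h : Polynomial.eval₂ (constF ℓ) (jqModC (ZMod ℓ)) b = 0) :
    ∃ b' : Polynomial (Zl ℓ), b = Polynomial.C ((ℓ : ℕ) : Zl ℓ) * b' := by
  apply exists_eq_C_mul_of_map_eq_zero
  by_contra hne
  apply evalBar_ne_zero ℓ _ hne
  rw [Polynomial.eval₂_map]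
  exact h

theorem exists_eq_C_mul_of_evalBarInv (b : Polynomial (Zl ℓ))
    (h : Polynomial.eval₂ (constF ℓ) (jqModC (ZMod ℓ))⁻¹ b = 0) :
    ∃ b' : Polynomial (Zl ℓ), b = Polynomial.C ((ℓ : ℕ) : Zl ℓ) * b' := by
  apply exists_eq_C_mul_of_map_eq_zero
  by_contra hne
  apply evalBarInv_ne_zero ℓ _ hne
  rw [Polynomial.eval₂_map]
  exact h

set_option linter.unusedSectionVars false in
theorem evalJZ_injective : Function.Injective (evalJZ ℓ) := by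
  rw [injective_iff_map_eq_zero]
  intro b hb
  by_contra hne
  exact ThetaTrAux.eval₂_jqModC_ne_zero (Zl ℓ) b hne hb

set_option linter.unusedSectionVars false in
theorem thetaJ_injective : Function.Injective (thetaJ ℓ) := by
  rw [injective_iff_map_eq_zero]
  intro b hb
  have h1 : Polynomial.eval₂ (HahnSeries.C : ℚ →+* LaurentSeries ℚ) (jqModC ℚ)
      (b.map (GaloisRep.ratLocalizedAt ℓ).subtype) = 0 := by
    rw [Polynomial.eval₂_map]
    exact hb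
  have h2 : b.map (GaloisRep.ratLocalizedAt ℓ).subtype = 0 := by
    by_contra hne
    exact ThetaTrAux.eval₂_jqModC_ne_zero ℚ _ hne h1
  exact (Polynomial.map_eq_zero_iff Subtype.val_injective).mp h2

set_option linter.unusedSectionVars false in
theorem thetaJinv_injective : Function.Injective (thetaJinv ℓ) := by
  rw [injective_iff_map_eq_zero]
  intro b hb
  have h1 : Polynomial.eval₂ (HahnSeries.C : ℚ →+* LaurentSeries ℚ) (jqModC ℚ)⁻¹
      (b.map (GaloisRep.ratLocalizedAt ℓ).subtype) = 0 := by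
    rw [Polynomial.eval₂_map]
    exact hb
  have h2 : b.map (GaloisRep.ratLocalizedAt ℓ).subtype = 0 := by
    by_contra hne
    exact ThetaTrAux.eval₂_jqModC_inv_ne_zero ℚ _ hne h1
  exact (Polynomial.map_eq_zero_iff Subtype.val_injective).mp h2

/-- `ℤ_(ℓ)[j] ∩ ℓ·bigO = ℓ·ℤ_(ℓ)[j]`. -/
theorem thetaJ_div (a : LaurentSeries ℚ) (ha : a ∈ (thetaJ ℓ).range) (x : LaurentSeries ℚ)
    (hx : x ∈ bigO ℓ) (h : a = ((ℓ : ℕ) : LaurentSeries ℚ) * x) : x ∈ (thetaJ ℓ).range := by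
  obtain ⟨b, rfl⟩ := ha
  have heq : (⟨thetaJ ℓ b, isBigO_thetaJ ℓ b⟩ : ↥(bigO ℓ)) =
      ((ℓ : ℕ) : ↥(bigO ℓ)) * ⟨x, hx⟩ := by
    apply Subtype.ext
    rw [Subring.coe_mul, Subring.coe_natCast]
    exact h
  have hρ : Polynomial.eval₂ (constF ℓ) (jqModC (ZMod ℓ)) b = 0 := by
    rw [← rhoBig_thetaJ, heq, map_mul, rhoBig_natCast_ell, zero_mul]
  obtain ⟨b', rfl⟩ := exists_eq_C_mul_of_evalBar ℓ b hρ
  refine ⟨b', ?_⟩
  have h2 : thetaJ ℓ (Polynomial.C ((ℓ : ℕ) : Zl ℓ) * b') =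
      ((ℓ : ℕ) : LaurentSeries ℚ) * thetaJ ℓ b' := by
    rw [map_mul, Polynomial.C_eq_natCast, map_natCast]
  rw [h2] at h
  exact mul_left_cancel₀ (natCast_ell_LQ_ne_zero ℓ) h

/-- `ℤ_(ℓ)[j⁻¹] ∩ ℓ·bigO = ℓ·ℤ_(ℓ)[j⁻¹]`. -/
theorem thetaJinv_div (a : LaurentSeries ℚ) (ha : a ∈ (thetaJinv ℓ).range) (x : LaurentSeries ℚ)
    (hx : x ∈ bigO ℓ) (h : a = ((ℓ : ℕ) : LaurentSeries ℚ) * x) : x ∈ (thetaJinv ℓ).range := by
  obtain ⟨b, rfl⟩ := ha
  have heq : (⟨thetaJinv ℓ b, isBigO_thetaJinv ℓ b⟩ : ↥(bigO ℓ)) =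
      ((ℓ : ℕ) : ↥(bigO ℓ)) * ⟨x, hx⟩ := by
    apply Subtype.ext
    rw [Subring.coe_mul, Subring.coe_natCast]
    exact h
  have hρ : Polynomial.eval₂ (constF ℓ) (jqModC (ZMod ℓ))⁻¹ b = 0 := by
    rw [← rhoBig_thetaJinv, heq, map_mul, rhoBig_natCast_ell, zero_mul]
  obtain ⟨b', rfl⟩ := exists_eq_C_mul_of_evalBarInv ℓ b hρ
  refine ⟨b', ?_⟩
  have h2 : thetaJinv ℓ (Polynomial.C ((ℓ : ℕ) : Zl ℓ) * b') =
      ((ℓ : ℕ) : LaurentSeries ℚ) * thetaJinv ℓ b' := by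
    rw [map_mul, Polynomial.C_eq_natCast, map_natCast]
  rw [h2] at h
  exact mul_left_cancel₀ (natCast_ell_LQ_ne_zero ℓ) h

namespace ThetaTrAux

/-- Induction step for `exists_prim_poly`: divide out powers of `ℓ`. -/
theorem prim_aux : ∀ (k : ℕ) (b : Polynomial (Zl ℓ)) (B₀ : LaurentSeries (Zl ℓ)),
    redZ ℓ B₀ ≠ 0 → evalJZ ℓ b = ((ℓ : ℕ) : LaurentSeries (Zl ℓ)) ^ k * B₀ →
    ∃ (k' : ℕ) (b₀ : Polynomial (Zl ℓ)), redZ ℓ (evalJZ ℓ b₀) ≠ 0 ∧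
      b = Polynomial.C (((ℓ : ℕ) : Zl ℓ) ^ k') * b₀ := by
  intro k
  induction k with
  | zero =>
    intro b B₀ hB₀ h
    refine ⟨0, b, ?_, ?_⟩
    · rw [h, pow_zero, one_mul]
      exact hB₀
    · rw [pow_zero, Polynomial.C_1, one_mul]
  | succ k ih =>
    intro b B₀ hB₀ h
    have hred : redZ ℓ (evalJZ ℓ b) = 0 := by
      rw [h, map_mul, map_pow, map_natCast, natCast_ell_LF, zero_pow (Nat.succ_ne_zero k),
        zero_mul]
    rw [redZ_evalJZ] at hred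
    obtain ⟨b', rfl⟩ := exists_eq_C_mul_of_evalBar ℓ b hred
    have h2 : evalJZ ℓ (Polynomial.C ((ℓ : ℕ) : Zl ℓ) * b') =
        ((ℓ : ℕ) : LaurentSeries (Zl ℓ)) * evalJZ ℓ b' := by
      rw [map_mul, Polynomial.C_eq_natCast, map_natCast]
    rw [h2, pow_succ', mul_assoc] at h
    have hcancel : evalJZ ℓ b' = ((ℓ : ℕ) : LaurentSeries (Zl ℓ)) ^ k * B₀ := by
      apply embZ_injective ℓ
      have h3 := congrArg (embZ ℓ) h
      rw [map_mul, map_mul, map_natCast] at h3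
      exact mul_left_cancel₀ (natCast_ell_LQ_ne_zero ℓ) h3
    obtain ⟨k', b₀, hb₀, hb'⟩ := ih b' B₀ hB₀ hcancel
    refine ⟨k' + 1, b₀, hb₀, ?_⟩
    rw [hb', pow_succ', Polynomial.C_mul, mul_assoc]

end ThetaTrAux

/-- Every nonzero `b ∈ ℤ_(ℓ)[Y]` is `ℓ^k b₀` with `b₀(j)` primitive. -/
theorem exists_prim_poly (b : Polynomial (Zl ℓ)) (hb : b ≠ 0) :
    ∃ (k : ℕ) (b₀ : Polynomial (Zl ℓ)), redZ ℓ (evalJZ ℓ b₀) ≠ 0 ∧
      b = Polynomial.C (((ℓ : ℕ) : Zl ℓ) ^ k) * b₀ := by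
  have hne : evalJZ ℓ b ≠ 0 := (map_ne_zero_iff (evalJZ ℓ) (evalJZ_injective ℓ)).mpr hb
  obtain ⟨k, B₀, hB₀, hk⟩ := exists_pow_mul_prim ℓ (evalJZ ℓ b) hne
  exact ThetaTrAux.prim_aux ℓ k b B₀ hB₀ hk

end Fermat.Agent.S28.CAlt
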